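import Fermat.Agent.S14.H11.Rel

/-!
# The unit case of the key theorem (package U of S14)

`unit_case` : let `K` be the `p`-th cyclotomic field, `p ≥ 5`.  A unit `u` with the
`ω²`-eigen property modulo `p`-th powers which is congruent to a `p`-th power modulo
`(ζ - 1) ^ 3` is a `p`-th power.

`eigen_rel` : two `ω²`-eigen units satisfy a non-trivial relation modulo `p`-th powers.
-/

set_option autoImplicit false

open NumberField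

namespace Fermat.Agent.S14.H11

/-- **B2** (interface shape): two `ω²`-eigen units satisfy a non-trivial relation modulo `p`-th
powers. -/
theorem eigen_rel {p : ℕ} [Fact p.Prime] {K : Type} [Field K] [NumberField K] (hp5 : 5 ≤ p)
    [IsCyclotomicExtension {p} ℚ K] {ζ : K} (hζ : IsPrimitiveRoot ζ p) (u u' : (𝓞 K)ˣ)
    (hu : ∀ (σ : K ≃ₐ[ℚ] K) (a : ℕ), σ ζ = ζ ^ a →
      ∃ v : (𝓞 K)ˣ, σ ((u : 𝓞 K) : K) = ((u : 𝓞 K) : K) ^ (a ^ 2) * ((v : 𝓞 K) : K) ^ p)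
    (hu' : ∀ (σ : K ≃ₐ[ℚ] K) (a : ℕ), σ ζ = ζ ^ a →
      ∃ v : (𝓞 K)ˣ, σ ((u' : 𝓞 K) : K) = ((u' : 𝓞 K) : K) ^ (a ^ 2) * ((v : 𝓞 K) : K) ^ p) :
    ∃ (i j : ℕ) (v : (𝓞 K)ˣ), ¬ (p ∣ i ∧ p ∣ j) ∧ u ^ i * u' ^ j = v ^ p :=
  exists_pow_mul_pow_eq_pow p K hp5 hζ u u' hu hu'

/-- **UNIT** (skeleton shape). -/
theorem unit_case {p : ℕ} [Fact p.Prime] {K : Type} [Field K] [NumberField K] (hp5 : 5 ≤ p)
    [IsCyclotomicExtension {p} ℚ K] {ζ : K} (hζ : IsPrimitiveRoot ζ p) (u : (𝓞 K)ˣ)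
    (heig : ∀ (σ : K ≃ₐ[ℚ] K) (a : ℕ), σ ζ = ζ ^ a →
      ∃ v : (𝓞 K)ˣ, σ ((u : 𝓞 K) : K) = ((u : 𝓞 K) : K) ^ (a ^ 2) * ((v : 𝓞 K) : K) ^ p)
    (hloc : haveI : NeZero p := ⟨(Fact.out : p.Prime).ne_zero⟩
      ∃ y : 𝓞 K, (u : 𝓞 K) - y ^ p ∈ Ideal.span {(hζ.toInteger - 1) ^ 3}) :
    ∃ v : (𝓞 K)ˣ, u = v ^ p :=
  unit_case_of_rel p K hp5 hζ (fun u u' hu hu' => exists_pow_mul_pow_eq_pow p K hp5 hζ u u' hu hu')
    u heig hloc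

end Fermat.Agent.S14.H11
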