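import Fermat.Agent.S14.H11.Lambda2

/-!
# The cyclotomic units `1 + ζ ^ b` and the second logarithmic derivative

* `T3.lam2_one_add_xi_pow` : `lam2 (1 + (1 + X) ^ b) = b ^ 2 / 4`.
* `Lam2_eq_one_of_pow` : `Lam2 u = 1` if `u ≡ y ^ p mod (ζ - 1) ^ 3`.
* `eta_not_pow` : `∏_{b = 1}^{p - 1} (1 + ζ ^ b) ^ [b⁻²]` is not a `p`-th power in `K`.
-/

set_option autoImplicit false
set_option linter.unusedSectionVars false

open NumberField Polynomial

namespace Fermat.Agent.S14.H11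

namespace T3

variable {F : Type} [Field F]

theorem pow_c0 (w : T3 F) (n : ℕ) : (w ^ n).c0 = w.c0 ^ n := map_pow c0Hom w n

theorem prod_c0 {ι : Type} (s : Finset ι) (f : ι → T3 F) :
    (∏ i ∈ s, f i).c0 = ∏ i ∈ s, (f i).c0 := map_prod c0Hom f s

theorem lam2_one : lam2 (1 : T3 F) = 0 := by simp [lam2]

theorem lam2_pow (w : T3 F) (hw : w.c0 ≠ 0) (n : ℕ) : lam2 (w ^ n) = n * lam2 w := by
  induction n with
  | zero => simp [lam2_one]
  | succ n ih =>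
    rw [pow_succ, lam2_mul _ _ (by rw [pow_c0]; exact pow_ne_zero _ hw) hw, ih]
    push_cast
    ring

theorem lam2_prod {ι : Type} (s : Finset ι) (f : ι → T3 F) (hf : ∀ i ∈ s, (f i).c0 ≠ 0) :
    lam2 (∏ i ∈ s, f i) = ∑ i ∈ s, lam2 (f i) := by
  classical
  induction s using Finset.induction_on with
  | empty => simp [lam2_one]
  | insert a s ha ih =>
    rw [Finset.prod_insert ha, Finset.sum_insert ha,
      lam2_mul _ _ (hf a (Finset.mem_insert_self a s)), ih]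
    · intro i hi
      exact hf i (Finset.mem_insert_of_mem hi)
    · rw [prod_c0]
      exact Finset.prod_ne_zero_iff.mpr fun i hi => hf i (Finset.mem_insert_of_mem hi)

theorem one_add_xi_pow (b : ℕ) :
    (1 + xi ^ b : T3 F) = ⟨2, b, (b.choose 2 : ℕ)⟩ := by
  rw [xi_pow]
  ext
  · simp; norm_num
  · simp
  · simp

theorem lam2_one_add_xi_pow (h2 : (2 : F) ≠ 0) (b : ℕ) :
    lam2 (1 + xi ^ b : T3 F) = (b : F) ^ 2 / 4 := by
  rw [one_add_xi_pow]
  simp only [lam2]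
  have h := two_mul_choose_two (F := F) b
  have h4 : (4 : F) ≠ 0 := by
    have : (4 : F) = 2 * 2 := by norm_num
    rw [this]
    exact mul_ne_zero h2 h2
  rw [h]
  field_simp
  ring

end T3

variable (p : ℕ) [hp : Fact p.Prime]

include hp in
theorem two_ne_zero_zmod (hp5 : 5 ≤ p) : (2 : ZMod p) ≠ 0 := by
  intro h
  have h' : ((2 : ℕ) : ZMod p) = 0 := by exact_mod_cast h
  rw [ZMod.natCast_eq_zero_iff] at h'
  have := Nat.le_of_dvd (by norm_num) h'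
  omega

include hp in
theorem four_ne_zero_zmod (hp5 : 5 ≤ p) : (4 : ZMod p) ≠ 0 := by
  intro h
  have h' : ((4 : ℕ) : ZMod p) = 0 := by exact_mod_cast h
  rw [ZMod.natCast_eq_zero_iff] at h'
  have := Nat.le_of_dvd (by norm_num) h'
  omega

section hom

variable (K : Type) [Field K] [NumberField K] [IsCyclotomicExtension {p} ℚ K]

/-- `Lam2` kills every unit congruent to a `p`-th power modulo `(ζ - 1) ^ 3`. -/
theorem Lam2_eq_one_of_pow (hp5 : 5 ≤ p) {ζ : K} (hζ : IsPrimitiveRoot ζ p) (u : (𝓞 K)ˣ)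
    (y : 𝓞 K) (h : (hζ.toInteger - 1) ^ 3 ∣ (u : 𝓞 K) - y ^ p) : Lam2 p K hp5 hζ u = 1 := by
  apply Multiplicative.toAdd.injective
  have h0 := c0_Psi_unit_ne_zero p K hp5 hζ u
  rw [toAdd_Lam2]
  rw [Psi_eq_of_dvd p K hp5 hζ h, map_pow] at h0 ⊢
  have hy : (Psi p K hp5 hζ y).c0 ≠ 0 := by
    intro hy
    apply h0
    rw [T3.pow_c0, hy, zero_pow hp.out.ne_zero]
  rw [T3.lam2_pow _ hy, ZMod.natCast_self, zero_mul]
  rfl

/-- The exponent `[b⁻²]`. -/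
theorem sum_exp_mul_sq (hp5 : 5 ≤ p) :
    ∑ b ∈ Finset.Ico 1 p, ((((b : ZMod p)⁻¹) ^ 2).val : ZMod p) * ((b : ZMod p) ^ 2 / 4)
      = -(1 / 4) := by
  have h4 := four_ne_zero_zmod p hp5
  have : ∀ b ∈ Finset.Ico 1 p,
      ((((b : ZMod p)⁻¹) ^ 2).val : ZMod p) * ((b : ZMod p) ^ 2 / 4) = 1 / 4 := by
    intro b hb
    rw [Finset.mem_Ico] at hb
    have hb0 : (b : ZMod p) ≠ 0 := by
      rw [Ne, ZMod.natCast_eq_zero_iff]
      intro hdvd
      have := Nat.le_of_dvd (by omega) hdvd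
      omega
    have : NeZero p := ⟨hp.out.ne_zero⟩
    rw [ZMod.natCast_zmod_val]
    field_simp
  rw [Finset.sum_congr rfl this, Finset.sum_const, Nat.card_Ico, nsmul_eq_mul]
  have hp1 : ((p - 1 : ℕ) : ZMod p) = -1 := by
    rw [Nat.cast_sub hp.out.one_le, ZMod.natCast_self]
    simp
  rw [hp1]
  ring

/-- The unit-side cyclotomic unit `∏ (1 + ζ ^ b) ^ [b⁻²]` is not a `p`-th power in `K`. -/
theorem eta_not_pow_aux (hp5 : 5 ≤ p) {ζ : K} (hζ : IsPrimitiveRoot ζ p) (x : K) :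
    x ^ p ≠ ∏ b ∈ Finset.Ico 1 p, (1 + ζ ^ b) ^ ((((b : ZMod p)⁻¹) ^ 2).val) := by
  have : NeZero p := ⟨hp.out.ne_zero⟩
  intro h
  have hζint : IsIntegral ℤ ζ := hζ.isIntegral hp.out.pos
  have hint : IsIntegral ℤ x := by
    apply IsIntegral.of_pow hp.out.pos
    rw [h]
    refine IsIntegral.prod _ fun b _ => ?_
    exact (isIntegral_one.add (hζint.pow b)).pow _
  obtain ⟨y, rfl⟩ : ∃ y : 𝓞 K, algebraMap (𝓞 K) K y = x :=
    ⟨IsIntegralClosure.mk' (𝓞 K) x hint, IsIntegralClosure.algebraMap_mk' _ _ _⟩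
  have hy : y ^ p = ∏ b ∈ Finset.Ico 1 p,
      (1 + hζ.toInteger ^ b) ^ ((((b : ZMod p)⁻¹) ^ 2).val) := by
    apply FaithfulSMul.algebraMap_injective (𝓞 K) K
    rw [map_pow, h, map_prod]
    refine Finset.prod_congr rfl fun b _ => ?_
    rw [map_pow, map_add, map_one, map_pow]
    rfl
  have hΨ := congrArg (Psi p K hp5 hζ) hy
  rw [map_pow, map_prod] at hΨ
  have h2 := two_ne_zero_zmod p hp5
  have hfac : ∀ b ∈ Finset.Ico 1 p,
      Psi p K hp5 hζ ((1 + hζ.toInteger ^ b) ^ ((((b : ZMod p)⁻¹) ^ 2).val))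
        = (1 + T3.xi ^ b) ^ ((((b : ZMod p)⁻¹) ^ 2).val) := by
    intro b _
    rw [map_pow, map_add, map_one, map_pow, Psi_zeta]
  rw [Finset.prod_congr rfl hfac] at hΨ
  have hc0 : ∀ b ∈ Finset.Ico 1 p,
      ((1 + T3.xi ^ b : T3 (ZMod p)) ^ ((((b : ZMod p)⁻¹) ^ 2).val)).c0 ≠ 0 := by
    intro b _
    rw [T3.pow_c0, T3.one_add_xi_pow]
    exact pow_ne_zero _ h2
  have hy0 : (Psi p K hp5 hζ y).c0 ≠ 0 := by
    intro hy0
    have := congrArg T3.c0 hΨ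
    rw [T3.pow_c0, hy0, zero_pow hp.out.ne_zero, T3.prod_c0] at this
    exact Finset.prod_ne_zero_iff.mpr hc0 this.symm
  have hlam := congrArg T3.lam2 hΨ
  rw [T3.lam2_pow _ hy0, ZMod.natCast_self, zero_mul, T3.lam2_prod _ _ hc0] at hlam
  have hterm : ∀ b ∈ Finset.Ico 1 p,
      T3.lam2 ((1 + T3.xi ^ b : T3 (ZMod p)) ^ ((((b : ZMod p)⁻¹) ^ 2).val))
        = ((((b : ZMod p)⁻¹) ^ 2).val : ZMod p) * ((b : ZMod p) ^ 2 / 4) := by
    intro b _
    rw [T3.lam2_pow _ (by rw [T3.one_add_xi_pow]; exact h2), T3.lam2_one_add_xi_pow h2]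
  rw [Finset.sum_congr rfl hterm, sum_exp_mul_sq p hp5] at hlam
  have h4 := four_ne_zero_zmod p hp5
  have : (1 : ZMod p) / 4 = 0 := by
    have := congrArg Neg.neg hlam
    simpa using this.symm
  rw [div_eq_zero_iff] at this
  rcases this with h1 | h1
  · exact one_ne_zero h1
  · exact h4 h1

end hom

/-- **UNIT'** (skeleton shape): the unit-side cyclotomic unit `∏ (1 + ζ ^ b) ^ [b⁻²]` is not a
`p`-th power in `K`. -/
theorem eta_not_pow {p : ℕ} [Fact p.Prime] {K : Type} [Field K] [NumberField K] (hp5 : 5 ≤ p)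
    [IsCyclotomicExtension {p} ℚ K] {ζ : K} (hζ : IsPrimitiveRoot ζ p) (x : K) :
    x ^ p ≠ ∏ b ∈ Finset.Ico 1 p, (1 + ζ ^ b) ^ ((((b : ZMod p)⁻¹) ^ 2).val) :=
  eta_not_pow_aux p K hp5 hζ x

end Fermat.Agent.S14.H11
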