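import Mathlib

/-!
# The isotypic projector for a character of a finite group acting by matrices

`finrank_eigenSub` : if a finite group `G` acts on `F ^ r` through matrices `N τ`, `ψ : G →* Fˣ`
is a character, `|G|` is invertible in `F` and `∑ τ, ψ(τ)⁻¹ * trace (N τ) = |G|`, then the
simultaneous eigenspace `{x | ∀ τ, N τ x = ψ τ x}` has dimension `≡ 1` in `F`.
-/

set_option autoImplicit false
set_option linter.unusedSectionVars false

open Module

namespace Fermat.Agent.S14.H11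

section eigen

variable {G : Type} [Group G] [Fintype G] {F : Type} [Field F] {r : ℕ}

/-- The simultaneous eigenspace of a family of matrices for a character. -/
def eigenSub (N : G → Matrix (Fin r) (Fin r) F) (ψ : G →* Fˣ) : Submodule F (Fin r → F) where
  carrier := {x | ∀ τ, (N τ).mulVec x = ((ψ τ : Fˣ) : F) • x}
  add_mem' := by
    intro x y hx hy τ
    rw [Matrix.mulVec_add, hx τ, hy τ, smul_add]
  zero_mem' := by
    intro τ
    simp
  smul_mem' := by
    intro c x hx τ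
    rw [Matrix.mulVec_smul, hx τ, smul_comm]

theorem mem_eigenSub (N : G → Matrix (Fin r) (Fin r) F) (ψ : G →* Fˣ) (x : Fin r → F) :
    x ∈ eigenSub N ψ ↔ ∀ τ, (N τ).mulVec x = ((ψ τ : Fˣ) : F) • x := Iff.rfl

/-- The projector matrix. -/
noncomputable def projMat (N : G → Matrix (Fin r) (Fin r) F) (ψ : G →* Fˣ) :
    Matrix (Fin r) (Fin r) F :=
  ((Fintype.card G : F))⁻¹ • ∑ τ : G, (((ψ τ)⁻¹ : Fˣ) : F) • N τ

theorem mul_projMat (N : G → Matrix (Fin r) (Fin r) F)
    (hNmul : ∀ σ τ, N (σ * τ) = N σ * N τ) (ψ : G →* Fˣ) (σ : G) :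
    N σ * projMat N ψ = ((ψ σ : Fˣ) : F) • projMat N ψ := by
  unfold projMat
  rw [Matrix.mul_smul, smul_comm ((ψ σ : Fˣ) : F)]
  congr 1
  rw [Finset.mul_sum, Finset.smul_sum]
  rw [← Fintype.sum_equiv (Equiv.mulLeft σ) (fun τ => ((ψ σ : Fˣ) : F) • (((ψ (σ * τ))⁻¹ : Fˣ) : F) • N (σ * τ))
    (fun τ => ((ψ σ : Fˣ) : F) • (((ψ τ)⁻¹ : Fˣ) : F) • N τ) (fun τ => rfl)]
  refine Finset.sum_congr rfl fun τ _ => ?_
  rw [Matrix.mul_smul, ← hNmul, smul_smul]
  congr 1
  rw [map_mul, mul_inv, Units.val_mul, ← mul_assoc]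
  rw [mul_comm ((ψ σ : Fˣ) : F), ← Units.val_mul, ← Units.val_mul]
  simp

theorem finrank_eigenSub (N : G → Matrix (Fin r) (Fin r) F)
    (hNmul : ∀ σ τ, N (σ * τ) = N σ * N τ) (ψ : G →* Fˣ) (hG : (Fintype.card G : F) ≠ 0)
    (htr : ∑ τ : G, (((ψ τ)⁻¹ : Fˣ) : F) * (N τ).trace = (Fintype.card G : F)) :
    ((finrank F (eigenSub N ψ) : ℕ) : F) = 1 := by
  classical
  have hproj : LinearMap.IsProj (eigenSub N ψ) (Matrix.toLin' (projMat N ψ)) := by
    refine ⟨fun x => ?_, fun x hx => ?_⟩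
    · intro τ
      rw [Matrix.toLin'_apply, Matrix.mulVec_mulVec, mul_projMat N hNmul ψ τ, Matrix.smul_mulVec]
    · rw [Matrix.toLin'_apply]
      unfold projMat
      rw [Matrix.smul_mulVec, Matrix.sum_mulVec]
      have : ∀ τ : G, ((((ψ τ)⁻¹ : Fˣ) : F) • N τ).mulVec x = x := by
        intro τ
        rw [Matrix.smul_mulVec, hx τ, smul_smul, ← Units.val_mul]
        simp
      rw [Finset.sum_congr rfl fun τ _ => this τ, Finset.sum_const, Finset.card_univ,
        ← Nat.cast_smul_eq_nsmul F, smul_smul, inv_mul_cancel₀ hG, one_smul]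
  have h1 := hproj.trace
  rw [← h1, Matrix.trace_toLin'_eq]
  unfold projMat
  rw [Matrix.trace_smul, Matrix.trace_sum]
  simp only [Matrix.trace_smul, smul_eq_mul]
  rw [htr, inv_mul_cancel₀ hG]

end eigen

end Fermat.Agent.S14.H11
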