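import Fermat.Agent.S14.H11.Eta2

/-!
# An explicit `ω²`-eigen unit with non-trivial second logarithmic derivative

* `IsEig ζ u` : `σ u = u ^ (a ^ 2) * v ^ p` whenever `σ ζ = ζ ^ a` (the `ω²`-eigen property modulo
  `p`-th powers).
* `E2` : the unit `∏_τ τ(1 + ζ) ^ [χ(τ)⁻²]`; it satisfies `IsEig` (`isEig_E2`) and
  `Lam2 E2 ≠ 1` (`Lam2_E2_ne_one`).
* `unit_case_of_rel` : the unit case of the key theorem, given the dimension statement for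
  the eigenspace.
-/

set_option autoImplicit false
set_option linter.unusedSectionVars false

open NumberField Polynomial

namespace Fermat.Agent.S14.H11

variable (p : ℕ) [hp : Fact p.Prime]

section hom

variable (K : Type) [Field K] [NumberField K]

/-- The `ω²`-eigen property of a unit modulo `p`-th powers. -/
def IsEig (ζ : K) (u : (𝓞 K)ˣ) : Prop :=
  ∀ (σ : K ≃ₐ[ℚ] K) (a : ℕ), σ ζ = ζ ^ a →
    ∃ v : (𝓞 K)ˣ, σ ((u : 𝓞 K) : K) = ((u : 𝓞 K) : K) ^ (a ^ 2) * ((v : 𝓞 K) : K) ^ p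

theorem isEig_iff (ζ : K) (u : (𝓞 K)ˣ) :
    IsEig p K ζ u ↔ ∀ (σ : K ≃ₐ[ℚ] K) (a : ℕ), σ ζ = ζ ^ a →
      ∃ v : (𝓞 K)ˣ, galU K σ u = u ^ (a ^ 2) * v ^ p := by
  have key : ∀ (σ : K ≃ₐ[ℚ] K) (a : ℕ) (v : (𝓞 K)ˣ),
      (σ ((u : 𝓞 K) : K) = ((u : 𝓞 K) : K) ^ (a ^ 2) * ((v : 𝓞 K) : K) ^ p) ↔
        galU K σ u = u ^ (a ^ 2) * v ^ p := by
    intro σ a v
    rw [← galU_coe]
    constructor
    · intro h
      apply Units.ext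
      apply RingOfIntegers.ext
      rw [h]
      simp
    · intro h
      rw [h]
      simp
  constructor
  · intro h σ a hσ
    obtain ⟨v, hv⟩ := h σ a hσ
    exact ⟨v, (key σ a v).mp hv⟩
  · intro h σ a hσ
    obtain ⟨v, hv⟩ := h σ a hσ
    exact ⟨v, (key σ a v).mpr hv⟩

variable [IsCyclotomicExtension {p} ℚ K]

theorem isUnit_one_add_zeta (hp5 : 5 ≤ p) {ζ : K} (hζ : IsPrimitiveRoot ζ p) :
    IsUnit (1 + hζ.toInteger) := by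
  have : NeZero p := ⟨hp.out.ne_zero⟩
  have h := hζ.toInteger_isPrimitiveRoot.geom_sum_isUnit (j := 2) (by omega)
    ((Nat.coprime_primes Nat.prime_two hp.out).mpr (by omega))
  simpa [Finset.sum_range_succ] using h

/-- The unit `1 + ζ`. -/
noncomputable def E1 (hp5 : 5 ≤ p) {ζ : K} (hζ : IsPrimitiveRoot ζ p) : (𝓞 K)ˣ :=
  (isUnit_one_add_zeta p K hp5 hζ).unit

theorem E1_val (hp5 : 5 ≤ p) {ζ : K} (hζ : IsPrimitiveRoot ζ p) :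
    ((E1 p K hp5 hζ : (𝓞 K)ˣ) : 𝓞 K) = 1 + hζ.toInteger := rfl

theorem toAdd_Lam2_E1 (hp5 : 5 ≤ p) {ζ : K} (hζ : IsPrimitiveRoot ζ p) :
    Multiplicative.toAdd (Lam2 p K hp5 hζ (E1 p K hp5 hζ)) = 1 / 4 := by
  rw [toAdd_Lam2, E1_val, map_add, map_one, Psi_zeta]
  have h := T3.lam2_one_add_xi_pow (F := ZMod p) (two_ne_zero_zmod p hp5) 1
  rw [pow_one] at h
  rw [h]
  simp

/-- The exponent of `ζ` under `τ`, as a natural number. -/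
noncomputable def aExp {ζ : K} (hζ : IsPrimitiveRoot ζ p) (τ : K ≃ₐ[ℚ] K) : ℕ :=
  haveI : NeZero p := ⟨hp.out.ne_zero⟩
  ((hζ.autToPow ℚ τ : (ZMod p)ˣ) : ZMod p).val

theorem aExp_spec {ζ : K} (hζ : IsPrimitiveRoot ζ p) (τ : K ≃ₐ[ℚ] K) :
    τ ζ = ζ ^ aExp p K hζ τ := by
  have : NeZero p := ⟨hp.out.ne_zero⟩
  exact (hζ.autToPow_spec ℚ τ).symm

theorem aExp_cast {ζ : K} (hζ : IsPrimitiveRoot ζ p) (τ : K ≃ₐ[ℚ] K) :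
    haveI : NeZero p := ⟨hp.out.ne_zero⟩
    ((aExp p K hζ τ : ℕ) : ZMod p) = ((hζ.autToPow ℚ τ : (ZMod p)ˣ) : ZMod p) := by
  have : NeZero p := ⟨hp.out.ne_zero⟩
  exact ZMod.natCast_zmod_val _

/-- If `σ ζ = ζ ^ a` then `a ≡ χ(σ)` modulo `p`. -/
theorem cast_eq_autToPow {ζ : K} (hζ : IsPrimitiveRoot ζ p) (σ : K ≃ₐ[ℚ] K) (a : ℕ)
    (hσ : σ ζ = ζ ^ a) :
    haveI : NeZero p := ⟨hp.out.ne_zero⟩
    ((a : ℕ) : ZMod p) = ((hζ.autToPow ℚ σ : (ZMod p)ˣ) : ZMod p) := by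
  have : NeZero p := ⟨hp.out.ne_zero⟩
  rw [← aExp_cast]
  have h : ζ ^ a = ζ ^ aExp p K hζ σ := by rw [← hσ, aExp_spec p K hζ σ]
  rw [(hζ.isOfFinOrder (NeZero.ne _)).pow_eq_pow_iff_modEq, ← hζ.eq_orderOf] at h
  exact (ZMod.natCast_eq_natCast_iff a _ p).mpr h

/-- The exponent `[χ(τ)⁻²]`. -/
noncomputable def mExp {ζ : K} (hζ : IsPrimitiveRoot ζ p) (τ : K ≃ₐ[ℚ] K) : ℕ :=
  haveI : NeZero p := ⟨hp.out.ne_zero⟩
  ((((hζ.autToPow ℚ τ)⁻¹ ^ 2 : (ZMod p)ˣ) : (ZMod p)ˣ) : ZMod p).val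

theorem mExp_cast {ζ : K} (hζ : IsPrimitiveRoot ζ p) (τ : K ≃ₐ[ℚ] K) :
    haveI : NeZero p := ⟨hp.out.ne_zero⟩
    ((mExp p K hζ τ : ℕ) : ZMod p) = (((hζ.autToPow ℚ τ)⁻¹ ^ 2 : (ZMod p)ˣ) : ZMod p) := by
  have : NeZero p := ⟨hp.out.ne_zero⟩
  exact ZMod.natCast_zmod_val _

/-- `[χ(σ⁻¹ρ)⁻²] = a² [χ(ρ)⁻²] mod p` if `σ ζ = ζ ^ a`. -/
theorem mExp_inv_mul {ζ : K} (hζ : IsPrimitiveRoot ζ p) (σ ρ : K ≃ₐ[ℚ] K) (a : ℕ)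
    (hσ : σ ζ = ζ ^ a) :
    mExp p K hζ (σ⁻¹ * ρ) = (mExp p K hζ ρ * a ^ 2) % p := by
  have : NeZero p := ⟨hp.out.ne_zero⟩
  rw [← ZMod.val_natCast]
  unfold mExp
  congr 1
  have h1 := mExp_cast p K hζ ρ
  have h2 := cast_eq_autToPow p K hζ σ a hσ
  push_cast
  rw [h2, ZMod.natCast_zmod_val]
  simp only [map_mul, map_inv, Units.val_mul, Units.val_inv_eq_inv_val]
  rw [mul_inv, inv_inv]
  ring

/-- The explicit `ω²`-eigen unit `∏_τ τ(1 + ζ) ^ [χ(τ)⁻²]`. -/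
noncomputable def E2 (hp5 : 5 ≤ p) {ζ : K} (hζ : IsPrimitiveRoot ζ p) : (𝓞 K)ˣ :=
  ∏ τ : K ≃ₐ[ℚ] K, galU K τ (E1 p K hp5 hζ) ^ mExp p K hζ τ

theorem galU_E2 (hp5 : 5 ≤ p) {ζ : K} (hζ : IsPrimitiveRoot ζ p) (σ : K ≃ₐ[ℚ] K) (a : ℕ)
    (hσ : σ ζ = ζ ^ a) :
    ∃ v : (𝓞 K)ˣ, galU K σ (E2 p K hp5 hζ) = E2 p K hp5 hζ ^ (a ^ 2) * v ^ p := by
  set V : (𝓞 K)ˣ := ∏ ρ : K ≃ₐ[ℚ] K,
    galU K ρ (E1 p K hp5 hζ) ^ ((mExp p K hζ ρ * a ^ 2) / p) with hV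
  have h1 : galU K σ (E2 p K hp5 hζ)
      = ∏ ρ : K ≃ₐ[ℚ] K, galU K ρ (E1 p K hp5 hζ) ^ mExp p K hζ (σ⁻¹ * ρ) := by
    unfold E2
    rw [map_prod]
    rw [← Equiv.prod_comp (Equiv.mulLeft σ)
      (fun ρ => galU K ρ (E1 p K hp5 hζ) ^ mExp p K hζ (σ⁻¹ * ρ))]
    refine Finset.prod_congr rfl fun τ _ => ?_
    rw [map_pow, Equiv.coe_mulLeft, inv_mul_cancel_left, galU_mul]
  have h2 : E2 p K hp5 hζ ^ (a ^ 2) = galU K σ (E2 p K hp5 hζ) * V ^ p := by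
    rw [h1, hV, ← Finset.prod_pow, ← Finset.prod_mul_distrib]
    unfold E2
    rw [← Finset.prod_pow]
    refine Finset.prod_congr rfl fun ρ _ => ?_
    rw [← pow_mul, ← pow_mul, ← pow_add, mExp_inv_mul p K hζ σ ρ a hσ, mul_comm _ p,
      Nat.mod_add_div]
  refine ⟨V⁻¹, ?_⟩
  rw [h2, inv_pow, mul_inv_cancel_right]

theorem isEig_E2 (hp5 : 5 ≤ p) {ζ : K} (hζ : IsPrimitiveRoot ζ p) :
    IsEig p K ζ (E2 p K hp5 hζ) :=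
  (isEig_iff p K ζ _).mpr fun σ a hσ => galU_E2 p K hp5 hζ σ a hσ

theorem card_aut_ne_zero {ζ : K} (hζ : IsPrimitiveRoot ζ p) :
    ((Fintype.card (K ≃ₐ[ℚ] K) : ℕ) : ZMod p) ≠ 0 := by
  have : NeZero p := ⟨hp.out.ne_zero⟩
  have hle : Fintype.card (K ≃ₐ[ℚ] K) ≤ Fintype.card (ZMod p)ˣ :=
    Fintype.card_le_of_injective _ (hζ.autToPow_injective ℚ)
  rw [ZMod.card_units_eq_totient, Nat.totient_prime hp.out] at hle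
  rw [Ne, ZMod.natCast_eq_zero_iff]
  intro hdvd
  have hpos : 0 < Fintype.card (K ≃ₐ[ℚ] K) := Fintype.card_pos
  have := Nat.le_of_dvd hpos hdvd
  have := hp.out.one_lt
  omega

theorem toAdd_Lam2_E2 (hp5 : 5 ≤ p) {ζ : K} (hζ : IsPrimitiveRoot ζ p) :
    Multiplicative.toAdd (Lam2 p K hp5 hζ (E2 p K hp5 hζ))
      = (Fintype.card (K ≃ₐ[ℚ] K) : ZMod p) * (1 / 4) := by
  have : NeZero p := ⟨hp.out.ne_zero⟩
  unfold E2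
  rw [map_prod, toAdd_prod]
  have hterm : ∀ τ ∈ (Finset.univ : Finset (K ≃ₐ[ℚ] K)),
      Multiplicative.toAdd (Lam2 p K hp5 hζ (galU K τ (E1 p K hp5 hζ) ^ mExp p K hζ τ))
        = 1 / 4 := by
    intro τ _
    rw [toAdd_Lam2_pow, toAdd_Lam2_galU p K hp5 hζ τ _ (aExp_spec p K hζ τ), toAdd_Lam2_E1,
      mExp_cast, aExp_cast]
    simp only [Units.val_pow_eq_pow_val, Units.val_inv_eq_inv_val]
    have hne : ((hζ.autToPow ℚ τ : (ZMod p)ˣ) : ZMod p) ≠ 0 := Units.ne_zero _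
    field_simp
  rw [Finset.sum_congr rfl hterm, Finset.sum_const, Finset.card_univ, nsmul_eq_mul]

theorem toAdd_Lam2_E2_ne_zero (hp5 : 5 ≤ p) {ζ : K} (hζ : IsPrimitiveRoot ζ p) :
    Multiplicative.toAdd (Lam2 p K hp5 hζ (E2 p K hp5 hζ)) ≠ 0 := by
  rw [toAdd_Lam2_E2]
  refine mul_ne_zero (card_aut_ne_zero p K hζ) ?_
  exact one_div_ne_zero (four_ne_zero_zmod p hp5)

/-- **Unit case**, given the dimension statement for the `ω²`-eigenspace. -/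
theorem unit_case_of_rel (hp5 : 5 ≤ p) {ζ : K} (hζ : IsPrimitiveRoot ζ p)
    (hrel : ∀ u u' : (𝓞 K)ˣ, IsEig p K ζ u → IsEig p K ζ u' →
      ∃ (i j : ℕ) (v : (𝓞 K)ˣ), ¬ (p ∣ i ∧ p ∣ j) ∧ u ^ i * u' ^ j = v ^ p)
    (u : (𝓞 K)ˣ) (heig : IsEig p K ζ u)
    (hloc : haveI : NeZero p := ⟨hp.out.ne_zero⟩
      ∃ y : 𝓞 K, (u : 𝓞 K) - y ^ p ∈ Ideal.span {(hζ.toInteger - 1) ^ 3}) :
    ∃ v : (𝓞 K)ˣ, u = v ^ p := by
  have : NeZero p := ⟨hp.out.ne_zero⟩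
  obtain ⟨y, hy⟩ := hloc
  have hLu : Lam2 p K hp5 hζ u = 1 :=
    Lam2_eq_one_of_pow p K hp5 hζ u y (Ideal.mem_span_singleton.mp hy)
  obtain ⟨i, j, v, hij, hr⟩ := hrel u (E2 p K hp5 hζ) heig (isEig_E2 p K hp5 hζ)
  have hL : Multiplicative.toAdd (Lam2 p K hp5 hζ (u ^ i * E2 p K hp5 hζ ^ j))
      = Multiplicative.toAdd (Lam2 p K hp5 hζ (v ^ p)) := by rw [hr]
  rw [toAdd_Lam2_mul, toAdd_Lam2_pow, toAdd_Lam2_pow, toAdd_Lam2_pow_p, hLu, toAdd_one, mul_zero,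
    zero_add] at hL
  have hj : p ∣ j := by
    rcases mul_eq_zero.mp hL with h | h
    · exact (ZMod.natCast_eq_zero_iff j p).mp h
    · exact absurd h (toAdd_Lam2_E2_ne_zero p K hp5 hζ)
  have hi : ¬ p ∣ i := fun hi => hij ⟨hi, hj⟩
  obtain ⟨j', rfl⟩ := hj
  -- `u ^ i` is a `p`-th power
  obtain ⟨w, hw⟩ : ∃ w : (𝓞 K)ˣ, u ^ i = w ^ p := by
    refine ⟨v * (E2 p K hp5 hζ ^ j')⁻¹, ?_⟩
    rw [mul_pow, ← hr, inv_pow, ← pow_mul, mul_comm j' p, mul_inv_cancel_right]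
  -- Bezout
  have hcop : IsCoprime (p : ℤ) (i : ℤ) :=
    (Prime.coprime_iff_not_dvd (Nat.prime_iff_prime_int.mp hp.out)).2
      (fun h => hi (Int.natCast_dvd_natCast.mp h))
  obtain ⟨s, t, hst⟩ := hcop
  refine ⟨u ^ s * w ^ t, ?_⟩
  calc u = u ^ (s * (p : ℤ) + t * (i : ℤ)) := by rw [hst, zpow_one]
    _ = (u ^ s) ^ p * (u ^ i) ^ t := by
        rw [zpow_add, zpow_mul, zpow_natCast, mul_comm t, zpow_mul, zpow_natCast]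
    _ = (u ^ s * w ^ t) ^ p := by
        rw [hw, mul_pow, ← zpow_natCast (w ^ t), ← zpow_natCast w, ← zpow_mul, ← zpow_mul,
          mul_comm t]

end hom

end Fermat.Agent.S14.H11
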