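import Mathlib

/-!
# The action of field automorphisms on the units of the ring of integers
-/

set_option autoImplicit false

open NumberField

namespace Fermat.Agent.S14.H11

section galU

variable (K : Type) [Field K] [NumberField K]

/-- The action of a field automorphism on the units of the ring of integers. -/
noncomputable def galU (σ : K ≃ₐ[ℚ] K) : (𝓞 K)ˣ →* (𝓞 K)ˣ :=
  Units.map (RingOfIntegers.mapRingHom (σ : K →+* K) : 𝓞 K →* 𝓞 K)

theorem galU_coe (σ : K ≃ₐ[ℚ] K) (u : (𝓞 K)ˣ) :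
    (((galU K σ u : (𝓞 K)ˣ) : 𝓞 K) : K) = σ ((u : 𝓞 K) : K) := rfl

theorem galU_val (σ : K ≃ₐ[ℚ] K) (u : (𝓞 K)ˣ) :
    ((galU K σ u : (𝓞 K)ˣ) : 𝓞 K) = RingOfIntegers.mapRingHom (σ : K →+* K) (u : 𝓞 K) := rfl

theorem galU_mul (σ τ : K ≃ₐ[ℚ] K) (u : (𝓞 K)ˣ) : galU K (σ * τ) u = galU K σ (galU K τ u) := by
  ext
  rfl

theorem galU_one (u : (𝓞 K)ˣ) : galU K 1 u = u := by
  ext
  rfl

end galU

end Fermat.Agent.S14.H11
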