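import Fermat.Agent.S14.H11.Trunc
import Fermat.Agent.S14.H11.GalU

/-!
# The second logarithmic derivative `Lam2` on cyclotomic units

For a prime `p ≥ 5`, `K` the `p`-th cyclotomic field and `ζ` a primitive `p`-th root of unity we
construct the ring homomorphism `Psi : 𝓞 K → 𝔽_p[X]/(X^3)`, `ζ ↦ 1 + X`, and the group
homomorphism `Lam2 : (𝓞 K)ˣ →* Multiplicative (ZMod p)`.

* `Lam2_eq_one_of_dvd` : `Lam2 u = 1` if `u ≡ n mod (ζ - 1)^3` for a rational integer `n`.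
* `Lam2_galU` : `Lam2 (σ u) = Lam2 u ^ (a ^ 2)` if `σ ζ = ζ ^ a`.
* `toAdd_Lam2_onePlusZeta` : `Lam2 (1 + ζ) = 1 / 4`.
-/

set_option autoImplicit false
set_option linter.unusedSectionVars false

open NumberField Polynomial

namespace Fermat.Agent.S14.H11

variable (p : ℕ) [hp : Fact p.Prime]

theorem natCast_p_T3 : ((p : ℕ) : T3 (ZMod p)) = 0 := by
  ext <;> simp

include hp in
theorem xi_sub_one_pow (hp5 : 5 ≤ p) : ((T3.xi : T3 (ZMod p)) - 1) ^ (p - 1) = 0 := by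
  have h : (T3.xi : T3 (ZMod p)) - 1 = T3.eps := by ext <;> simp [T3.xi]
  rw [h]
  exact T3.eps_pow_of_three_le (by omega)

include hp in
theorem aeval_xi_cyclotomic (hp5 : 5 ≤ p) :
    aeval (T3.xi : T3 (ZMod p)) (cyclotomic p ℤ) = 0 := by
  have h1 : cyclotomic p (ZMod p) = (X - 1) ^ (p - 1) := by
    have := cyclotomic_mul_prime_pow_eq (ZMod p) (p := p) (m := 1) hp.out.not_dvd_one
      (k := 1) one_pos
    simpa [cyclotomic_one] using this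
  have h2 : aeval (T3.xi : T3 (ZMod p)) (cyclotomic p ℤ)
      = aeval (T3.xi : T3 (ZMod p)) (cyclotomic p (ZMod p)) := by
    rw [← map_cyclotomic_int p (ZMod p)]
    exact (aeval_map_algebraMap (ZMod p) (T3.xi : T3 (ZMod p)) (cyclotomic p ℤ)).symm
  rw [h2, h1]
  simp [xi_sub_one_pow p hp5]

section hom

variable (K : Type) [Field K] [NumberField K] [IsCyclotomicExtension {p} ℚ K]

include hp in
theorem aeval_xi_minpoly (hp5 : 5 ≤ p) {ζ : K} (hζ : IsPrimitiveRoot ζ p) :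
    aeval (T3.xi : T3 (ZMod p)) (minpoly ℤ hζ.integralPowerBasis.gen) = 0 := by
  have : NeZero p := ⟨hp.out.ne_zero⟩
  rw [hζ.integralPowerBasis_gen, ← RingOfIntegers.minpoly_coe]
  change aeval (T3.xi : T3 (ZMod p)) (minpoly ℤ ζ) = 0
  rw [← cyclotomic_eq_minpoly hζ hp.out.pos]
  exact aeval_xi_cyclotomic p hp5

/-- The ring homomorphism `𝓞 K → 𝔽_p[X]/(X^3)`, `ζ ↦ 1 + X`. -/
noncomputable def Psi (hp5 : 5 ≤ p) {ζ : K} (hζ : IsPrimitiveRoot ζ p) :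
    𝓞 K →ₐ[ℤ] T3 (ZMod p) :=
  hζ.integralPowerBasis.lift T3.xi (aeval_xi_minpoly p K hp5 hζ)

theorem Psi_zeta (hp5 : 5 ≤ p) {ζ : K} (hζ : IsPrimitiveRoot ζ p) :
    Psi p K hp5 hζ hζ.toInteger = T3.xi := by
  have : NeZero p := ⟨hp.out.ne_zero⟩
  have h := hζ.integralPowerBasis.lift_gen (T3.xi : T3 (ZMod p)) (aeval_xi_minpoly p K hp5 hζ)
  rwa [hζ.integralPowerBasis_gen] at h

theorem Psi_zeta_sub_one (hp5 : 5 ≤ p) {ζ : K} (hζ : IsPrimitiveRoot ζ p) :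
    Psi p K hp5 hζ (hζ.toInteger - 1) = T3.eps := by
  rw [map_sub, map_one, Psi_zeta]
  ext <;> simp [T3.xi]

/-- `Psi` kills `(ζ - 1) ^ 3`. -/
theorem Psi_eq_of_dvd (hp5 : 5 ≤ p) {ζ : K} (hζ : IsPrimitiveRoot ζ p) {x y : 𝓞 K}
    (h : (hζ.toInteger - 1) ^ 3 ∣ x - y) : Psi p K hp5 hζ x = Psi p K hp5 hζ y := by
  obtain ⟨w, hw⟩ := h
  have hx : x = y + (hζ.toInteger - 1) ^ 3 * w := by rw [← hw]; ring
  rw [hx, map_add, map_mul, map_pow, Psi_zeta_sub_one, T3.eps_pow_three, zero_mul, add_zero]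

/-- The constant coefficient of `Psi` as a monoid homomorphism to `ZMod p`. -/
noncomputable def c0Psi (hp5 : 5 ≤ p) {ζ : K} (hζ : IsPrimitiveRoot ζ p) : 𝓞 K →* ZMod p :=
  ((T3.c0Hom (F := ZMod p)).comp (Psi p K hp5 hζ).toRingHom).toMonoidHom

theorem c0Psi_apply (hp5 : 5 ≤ p) {ζ : K} (hζ : IsPrimitiveRoot ζ p) (x : 𝓞 K) :
    c0Psi p K hp5 hζ x = (Psi p K hp5 hζ x).c0 := rfl

theorem c0_Psi_unit_ne_zero (hp5 : 5 ≤ p) {ζ : K} (hζ : IsPrimitiveRoot ζ p) (u : (𝓞 K)ˣ) :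
    (Psi p K hp5 hζ (u : 𝓞 K)).c0 ≠ 0 := by
  have h : IsUnit (c0Psi p K hp5 hζ (u : 𝓞 K)) := (u.isUnit).map (c0Psi p K hp5 hζ)
  rw [c0Psi_apply] at h
  exact h.ne_zero

/-- The second logarithmic derivative on units. -/
noncomputable def Lam2 (hp5 : 5 ≤ p) {ζ : K} (hζ : IsPrimitiveRoot ζ p) :
    (𝓞 K)ˣ →* Multiplicative (ZMod p) where
  toFun u := Multiplicative.ofAdd (T3.lam2 (Psi p K hp5 hζ (u : 𝓞 K)))
  map_one' := by
    simp [T3.lam2]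
  map_mul' u v := by
    rw [← ofAdd_add]
    congr 1
    rw [Units.val_mul, map_mul]
    exact T3.lam2_mul _ _ (c0_Psi_unit_ne_zero p K hp5 hζ u) (c0_Psi_unit_ne_zero p K hp5 hζ v)

theorem toAdd_Lam2 (hp5 : 5 ≤ p) {ζ : K} (hζ : IsPrimitiveRoot ζ p) (u : (𝓞 K)ˣ) :
    Multiplicative.toAdd (Lam2 p K hp5 hζ u) = T3.lam2 (Psi p K hp5 hζ (u : 𝓞 K)) := rfl

/-- `Lam2` kills every unit congruent to a rational integer modulo `(ζ - 1) ^ 3`. -/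
theorem Lam2_eq_one_of_dvd (hp5 : 5 ≤ p) {ζ : K} (hζ : IsPrimitiveRoot ζ p) (u : (𝓞 K)ˣ) (n : ℤ)
    (h : (hζ.toInteger - 1) ^ 3 ∣ (u : 𝓞 K) - (n : 𝓞 K)) : Lam2 p K hp5 hζ u = 1 := by
  apply Multiplicative.toAdd.injective
  rw [toAdd_Lam2, Psi_eq_of_dvd p K hp5 hζ h, map_intCast]
  exact T3.lam2_of_c1_c2 _ rfl rfl

/-- `Psi ∘ σ = subst a ∘ Psi` if `σ ζ = ζ ^ a`. -/
theorem Psi_map (hp5 : 5 ≤ p) {ζ : K} (hζ : IsPrimitiveRoot ζ p) (σ : K ≃ₐ[ℚ] K) (a : ℕ)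
    (hσ : σ ζ = ζ ^ a) (x : 𝓞 K) :
    Psi p K hp5 hζ (RingOfIntegers.mapRingHom (σ : K →+* K) x)
      = T3.subst a (Psi p K hp5 hζ x) := by
  have : NeZero p := ⟨hp.out.ne_zero⟩
  let f₁ : 𝓞 K →ₐ[ℤ] T3 (ZMod p) :=
    ((Psi p K hp5 hζ).toRingHom.comp (RingOfIntegers.mapRingHom (σ : K →+* K))).toIntAlgHom
  let f₂ : 𝓞 K →ₐ[ℤ] T3 (ZMod p) :=
    ((T3.subst (F := ZMod p) a).comp (Psi p K hp5 hζ).toRingHom).toIntAlgHom
  have hgen : f₁ hζ.integralPowerBasis.gen = f₂ hζ.integralPowerBasis.gen := by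
    rw [hζ.integralPowerBasis_gen]
    have e1 : RingOfIntegers.mapRingHom (σ : K →+* K) hζ.toInteger = hζ.toInteger ^ a := by
      apply RingOfIntegers.ext
      rw [RingOfIntegers.mapRingHom_apply]
      change σ ζ = algebraMap (𝓞 K) K (hζ.toInteger ^ a)
      rw [map_pow]
      exact hσ
    change Psi p K hp5 hζ (RingOfIntegers.mapRingHom (σ : K →+* K) hζ.toInteger)
      = T3.subst a (Psi p K hp5 hζ hζ.toInteger)
    rw [e1, map_pow, Psi_zeta, T3.subst_xi]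
  have := hζ.integralPowerBasis.algHom_ext hgen
  exact congrArg (fun f : 𝓞 K →ₐ[ℤ] T3 (ZMod p) => f x) this

/-- Galois equivariance of `Lam2`: the `ω²`-eigen property. -/
theorem toAdd_Lam2_galU (hp5 : 5 ≤ p) {ζ : K} (hζ : IsPrimitiveRoot ζ p) (σ : K ≃ₐ[ℚ] K) (a : ℕ)
    (hσ : σ ζ = ζ ^ a) (u : (𝓞 K)ˣ) :
    Multiplicative.toAdd (Lam2 p K hp5 hζ (galU K σ u))
      = (a : ZMod p) ^ 2 * Multiplicative.toAdd (Lam2 p K hp5 hζ u) := by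
  rw [toAdd_Lam2, toAdd_Lam2, galU_val, Psi_map p K hp5 hζ σ a hσ, T3.lam2_subst]

theorem toAdd_Lam2_pow (hp5 : 5 ≤ p) {ζ : K} (hζ : IsPrimitiveRoot ζ p) (u : (𝓞 K)ˣ) (n : ℕ) :
    Multiplicative.toAdd (Lam2 p K hp5 hζ (u ^ n))
      = (n : ZMod p) * Multiplicative.toAdd (Lam2 p K hp5 hζ u) := by
  rw [map_pow, toAdd_pow, nsmul_eq_mul]

theorem toAdd_Lam2_zpow (hp5 : 5 ≤ p) {ζ : K} (hζ : IsPrimitiveRoot ζ p) (u : (𝓞 K)ˣ) (n : ℤ) :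
    Multiplicative.toAdd (Lam2 p K hp5 hζ (u ^ n))
      = (n : ZMod p) * Multiplicative.toAdd (Lam2 p K hp5 hζ u) := by
  rw [map_zpow, toAdd_zpow, zsmul_eq_mul]

theorem toAdd_Lam2_pow_p (hp5 : 5 ≤ p) {ζ : K} (hζ : IsPrimitiveRoot ζ p) (u : (𝓞 K)ˣ) :
    Multiplicative.toAdd (Lam2 p K hp5 hζ (u ^ p)) = 0 := by
  rw [toAdd_Lam2_pow, ZMod.natCast_self, zero_mul]

theorem toAdd_Lam2_mul (hp5 : 5 ≤ p) {ζ : K} (hζ : IsPrimitiveRoot ζ p) (u v : (𝓞 K)ˣ) :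
    Multiplicative.toAdd (Lam2 p K hp5 hζ (u * v))
      = Multiplicative.toAdd (Lam2 p K hp5 hζ u) + Multiplicative.toAdd (Lam2 p K hp5 hζ v) := by
  rw [map_mul, toAdd_mul]

end hom

end Fermat.Agent.S14.H11
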