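import Fermat.Agent.S14.H11.Trace
import Fermat.Agent.S14.H11.Eigen
import Fermat.Agent.S14.H11.EigenUnit

/-!
# The `ω²`-eigenspace of the units modulo `p`-th powers is at most one-dimensional

`exists_pow_mul_pow_eq_pow` : for the `p`-th cyclotomic field `K` (`p ≥ 5`), any two units
`u, u'` with the `ω²`-eigen property `IsEig` satisfy a non-trivial relation
`u ^ i * u' ^ j = v ^ p`.

The proof computes the multiplicity of the character `ω²` in `E / E^p` (`E` the units modulo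
torsion) via the trace of the mod-`p` isotypic projector, the trace of `τ` on `E` being the
number of infinite places fixed by `τ` minus one.
-/

set_option autoImplicit false
set_option maxSynthPendingDepth 3
set_option linter.unusedSectionVars false

open NumberField NumberField.Units NumberField.InfinitePlace

namespace Fermat.Agent.S14.H11

section generic

variable (K : Type) [Field K] [NumberField K]

/-- An automorphism fixing an infinite place has order at most two. -/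
theorem sq_eq_one_of_fixed (τ : K ≃ₐ[ℚ] K) (w : InfinitePlace K) (h : τ • w = w) : τ ^ 2 = 1 := by
  have hmem : τ ∈ MulAction.stabilizer (K ≃ₐ[ℚ] K) w := h
  have h1 := pow_card_eq_one' (x := (⟨τ, hmem⟩ : MulAction.stabilizer (K ≃ₐ[ℚ] K) w))
  rcases nat_card_stabilizer_eq_one_or_two ℚ w with h2 | h2
  · rw [h2, pow_one] at h1
    have : τ = 1 := congrArg Subtype.val h1
    rw [this, one_pow]
  · rw [h2] at h1
    exact congrArg Subtype.val h1

/-- Burnside's lemma for the (transitive) action on the infinite places. -/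
theorem sum_card_fixed [IsGalois ℚ K] :
    ∑ τ : K ≃ₐ[ℚ] K, Nat.card {w : InfinitePlace K // τ • w = w}
      = Fintype.card (K ≃ₐ[ℚ] K) := by
  classical
  have hB := MulAction.sum_card_fixedBy_eq_card_orbits_mul_card_group (K ≃ₐ[ℚ] K)
    (InfinitePlace K)
  have htrans : MulAction.IsPretransitive (K ≃ₐ[ℚ] K) (InfinitePlace K) :=
    ⟨fun w w' => exists_smul_eq_of_comap_eq (Subsingleton.elim _ _)⟩
  have hone : Fintype.card (Quotient (MulAction.orbitRel (K ≃ₐ[ℚ] K) (InfinitePlace K))) = 1 := by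
    rw [Fintype.card_eq_one_iff_nonempty_unique]
    exact (MulAction.pretransitive_iff_unique_quotient_of_nonempty _ _).mp htrans
  rw [hone, one_mul] at hB
  rw [← hB]
  refine Finset.sum_congr rfl fun τ _ => ?_
  rw [← Nat.card_eq_fintype_card]
  rfl

end generic

section cyclo

variable (p : ℕ) [hp : Fact p.Prime]
variable (K : Type) [Field K] [NumberField K] [IsCyclotomicExtension {p} ℚ K]

theorem card_aut : Fintype.card (K ≃ₐ[ℚ] K) = p - 1 := by
  have : IsGalois ℚ K := IsCyclotomicExtension.isGalois {p} ℚ K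
  rw [← Nat.card_eq_fintype_card, IsGalois.card_aut_eq_finrank,
    IsCyclotomicExtension.finrank K (Polynomial.cyclotomic.irreducible_rat hp.out.pos),
    Nat.totient_prime hp.out]

theorem autToPow_bijective {ζ : K} (hζ : IsPrimitiveRoot ζ p) :
    Function.Bijective (hζ.autToPow ℚ) := by
  rw [Fintype.bijective_iff_injective_and_card]
  exact ⟨hζ.autToPow_injective ℚ, by
    rw [card_aut p K, ZMod.card_units_eq_totient, Nat.totient_prime hp.out]⟩

/-- There is an automorphism with `τ ζ = ζ ^ 2`. -/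
theorem exists_aut_two (hp5 : 5 ≤ p) {ζ : K} (hζ : IsPrimitiveRoot ζ p) :
    ∃ τ : K ≃ₐ[ℚ] K, ((hζ.autToPow ℚ τ : (ZMod p)ˣ) : ZMod p) = 2 := by
  obtain ⟨τ, hτ⟩ := (autToPow_bijective p K hζ).2 (Units.mk0 (2 : ZMod p) (two_ne_zero_zmod p hp5))
  exact ⟨τ, by rw [hτ]; rfl⟩

include hp in
/-- The unit rank of the `p`-th cyclotomic field is less than `p`. -/
theorem rank_lt (hp5 : 5 ≤ p) : rank K < p := by
  dsimp only [NumberField.Units.rank]
  rw [InfinitePlace.card_eq_nrRealPlaces_add_nrComplexPlaces,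
    IsCyclotomicExtension.Rat.nrRealPlaces_eq_zero (n := p) K (by omega), zero_add,
    IsCyclotomicExtension.Rat.nrComplexPlaces_eq_totient_div_two (n := p),
    Nat.totient_prime hp.out]
  omega

/-- The character `ω² = χ²`. -/
noncomputable def psi {ζ : K} (hζ : IsPrimitiveRoot ζ p) : (K ≃ₐ[ℚ] K) →* (ZMod p)ˣ :=
  (powMonoidHom 2).comp (hζ.autToPow ℚ)

theorem psi_apply {ζ : K} (hζ : IsPrimitiveRoot ζ p) (τ : K ≃ₐ[ℚ] K) :
    psi p K hζ τ = (hζ.autToPow ℚ τ) ^ 2 := rfl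

theorem psi_eq_one_of_fixed {ζ : K} (hζ : IsPrimitiveRoot ζ p) (τ : K ≃ₐ[ℚ] K)
    (w : InfinitePlace K) (h : τ • w = w) : psi p K hζ τ = 1 := by
  rw [psi_apply, ← map_pow, sq_eq_one_of_fixed K τ w h, map_one]

/-- The matrices of the Galois action on units modulo torsion, reduced modulo `p`. -/
noncomputable def galMatP (τ : K ≃ₐ[ℚ] K) : Matrix (Fin (rank K)) (Fin (rank K)) (ZMod p) :=
  (galMat K τ).map (Int.castRingHom (ZMod p))

theorem galMatP_mul (σ τ : K ≃ₐ[ℚ] K) : galMatP p K (σ * τ) = galMatP p K σ * galMatP p K τ := by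
  unfold galMatP
  rw [galMat_mul, Matrix.map_mul]

theorem trace_galMatP (τ : K ≃ₐ[ℚ] K) :
    (galMatP p K τ).trace = (Nat.card {w : InfinitePlace K // τ • w = w} : ZMod p) - 1 := by
  unfold galMatP
  rw [← AddMonoidHom.map_trace (Int.castRingHom (ZMod p)), trace_galMat]
  simp

theorem sum_psi (hp5 : 5 ≤ p) {ζ : K} (hζ : IsPrimitiveRoot ζ p) :
    ∑ τ : K ≃ₐ[ℚ] K, (((psi p K hζ τ)⁻¹ : (ZMod p)ˣ) : ZMod p) = 0 := by
  have h1 : ∀ τ : K ≃ₐ[ℚ] K, (((psi p K hζ τ)⁻¹ : (ZMod p)ˣ) : ZMod p)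
      = ((psi p K hζ τ⁻¹ : (ZMod p)ˣ) : ZMod p) := fun τ => by rw [map_inv]
  rw [Finset.sum_congr rfl fun τ _ => h1 τ,
    Fintype.sum_equiv (Equiv.inv (K ≃ₐ[ℚ] K))
      (fun τ => ((psi p K hζ τ⁻¹ : (ZMod p)ˣ) : ZMod p))
      (fun τ => ((psi p K hζ τ : (ZMod p)ˣ) : ZMod p)) (fun τ => rfl)]
  refine sum_hom_units_eq_zero ((Units.coeHom (ZMod p)).comp (psi p K hζ)) ?_
  intro h
  obtain ⟨τ, hτ⟩ := exists_aut_two p K hp5 hζ
  have h2 := DFunLike.congr_fun h τ
  simp only [MonoidHom.coe_comp, Function.comp_apply, Units.coeHom_apply, psi_apply,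
    Units.val_pow_eq_pow_val, hτ, MonoidHom.one_apply] at h2
  have h3 : ((3 : ℕ) : ZMod p) = 0 := by
    push_cast
    linear_combination h2
  rw [ZMod.natCast_eq_zero_iff] at h3
  have := Nat.le_of_dvd (by norm_num) h3
  omega

theorem sum_psi_trace (hp5 : 5 ≤ p) {ζ : K} (hζ : IsPrimitiveRoot ζ p) :
    ∑ τ : K ≃ₐ[ℚ] K, (((psi p K hζ τ)⁻¹ : (ZMod p)ˣ) : ZMod p) * (galMatP p K τ).trace
      = (Fintype.card (K ≃ₐ[ℚ] K) : ZMod p) := by
  have : IsGalois ℚ K := IsCyclotomicExtension.isGalois {p} ℚ K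
  simp_rw [trace_galMatP, mul_sub, mul_one]
  rw [Finset.sum_sub_distrib, sum_psi p K hp5 hζ, sub_zero]
  have h1 : ∀ τ : K ≃ₐ[ℚ] K, (((psi p K hζ τ)⁻¹ : (ZMod p)ˣ) : ZMod p)
      * (Nat.card {w : InfinitePlace K // τ • w = w} : ZMod p)
      = (Nat.card {w : InfinitePlace K // τ • w = w} : ZMod p) := by
    intro τ
    by_cases h : Nonempty {w : InfinitePlace K // τ • w = w}
    · obtain ⟨⟨w, hw⟩⟩ := h
      rw [psi_eq_one_of_fixed p K hζ τ w hw, inv_one, Units.val_one, one_mul]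
    · rw [not_nonempty_iff] at h
      rw [Nat.card_of_isEmpty, Nat.cast_zero, mul_zero]
  rw [Finset.sum_congr rfl fun τ _ => h1 τ, ← Nat.cast_sum, sum_card_fixed K]

/-- The `ω²`-eigenspace of the units modulo `p` is one-dimensional. -/
theorem finrank_eigenSub_eq_one (hp5 : 5 ≤ p) {ζ : K} (hζ : IsPrimitiveRoot ζ p) :
    Module.finrank (ZMod p) (eigenSub (galMatP p K) (psi p K hζ)) = 1 := by
  have h := finrank_eigenSub (galMatP p K) (galMatP_mul p K) (psi p K hζ)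
    (card_aut_ne_zero p K hζ) (sum_psi_trace p K hp5 hζ)
  have hle : Module.finrank (ZMod p) (eigenSub (galMatP p K) (psi p K hζ)) ≤ rank K := by
    calc _ ≤ Module.finrank (ZMod p) (Fin (rank K) → ZMod p) := Submodule.finrank_le _
      _ = rank K := by simp
  have hr : rank K < p := rank_lt p K hp5
  have h' : ((Module.finrank (ZMod p) (eigenSub (galMatP p K) (psi p K hζ)) : ℕ) : ZMod p)
      = ((1 : ℕ) : ZMod p) := by rw [h, Nat.cast_one]
  rw [ZMod.natCast_eq_natCast_iff'] at h'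
  rw [Nat.mod_eq_of_lt (by omega), Nat.mod_eq_of_lt hp.out.one_lt] at h'
  exact h'

/-- The coordinates modulo `p` of a unit in the basis of fundamental units. -/
noncomputable def coordP (u : (𝓞 K)ˣ) : Fin (rank K) → ZMod p :=
  fun i => (((basisModTorsion K).repr (Additive.ofMul (QuotientGroup.mk u)) i : ℤ) : ZMod p)

theorem coordP_mem {ζ : K} (hζ : IsPrimitiveRoot ζ p) (u : (𝓞 K)ˣ) (hu : IsEig p K ζ u) :
    coordP p K u ∈ eigenSub (galMatP p K) (psi p K hζ) := by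
  classical
  rw [mem_eigenSub]
  intro τ
  obtain ⟨v, hv⟩ := (isEig_iff p K ζ u).mp hu τ (aExp p K hζ τ) (aExp_spec p K hζ τ)
  have h1 : galLam K τ (Additive.ofMul (QuotientGroup.mk u))
      = (aExp p K hζ τ ^ 2) • Additive.ofMul (QuotientGroup.mk (s := torsion K) u)
        + p • Additive.ofMul (QuotientGroup.mk (s := torsion K) v) := by
    rw [galLam_mk, hv]
    rfl
  have h2 := LinearMap.toMatrix_mulVec_repr (basisModTorsion K) (basisModTorsion K)
    (galLam K τ) (Additive.ofMul (QuotientGroup.mk u))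
  funext i
  have h3 := (RingHom.map_mulVec (Int.castRingHom (ZMod p)) (galMat K τ)
    (fun i => (basisModTorsion K).repr (Additive.ofMul (QuotientGroup.mk u)) i) i).symm
  have h4 : (galMatP p K τ).mulVec (coordP p K u) i
      = (((basisModTorsion K).repr (galLam K τ (Additive.ofMul (QuotientGroup.mk u))) i : ℤ)
          : ZMod p) := by
    rw [← h2]
    exact h3
  rw [h4, h1, map_add, map_nsmul, map_nsmul, psi_apply, Units.val_pow_eq_pow_val, ← aExp_cast]
  simp [coordP]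

/-- Two `ω²`-eigen units satisfy a non-trivial relation modulo `p`-th powers and torsion. -/
theorem exists_rel_mod_torsion (hp5 : 5 ≤ p) {ζ : K} (hζ : IsPrimitiveRoot ζ p)
    (u u' : (𝓞 K)ˣ) (hu : IsEig p K ζ u) (hu' : IsEig p K ζ u') :
    ∃ (i j : ℕ) (w t : (𝓞 K)ˣ), ¬ (p ∣ i ∧ p ∣ j) ∧ t ∈ torsion K ∧
      u ^ i * u' ^ j = t * w ^ p := by
  classical
  set x : eigenSub (galMatP p K) (psi p K hζ) := ⟨coordP p K u, coordP_mem p K hζ u hu⟩ with hx
  set x' : eigenSub (galMatP p K) (psi p K hζ) := ⟨coordP p K u', coordP_mem p K hζ u' hu'⟩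
    with hx'
  have hnot : ¬ LinearIndependent (ZMod p) ![x, x'] := by
    intro hli
    have := hli.fintype_card_le_finrank
    rw [finrank_eigenSub_eq_one p K hp5 hζ] at this
    simp at this
  obtain ⟨g, hg, i₀, hi₀⟩ := Fintype.not_linearIndependent_iff.mp hnot
  rw [Fin.sum_univ_two] at hg
  simp only [Matrix.cons_val_zero, Matrix.cons_val_one] at hg
  have hg' : g 0 • coordP p K u + g 1 • coordP p K u' = 0 := congrArg Subtype.val hg
  set c : Fin (rank K) → ℤ := fun k =>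
    ((g 0).val : ℤ) * (basisModTorsion K).repr (Additive.ofMul (QuotientGroup.mk u)) k
      + ((g 1).val : ℤ) * (basisModTorsion K).repr (Additive.ofMul (QuotientGroup.mk u')) k
    with hc
  have hcdvd : ∀ k, (p : ℤ) ∣ c k := by
    intro k
    rw [← ZMod.intCast_zmod_eq_zero_iff_dvd]
    have := congrFun hg' k
    simp only [Pi.add_apply, Pi.smul_apply, smul_eq_mul, Pi.zero_apply, coordP] at this
    rw [hc]
    push_cast
    rw [ZMod.natCast_zmod_val, ZMod.natCast_zmod_val]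
    exact this
  choose d hd using hcdvd
  obtain ⟨w, hw⟩ := exists_rep K (∑ k, d k • basisModTorsion K k)
  have hrel : Additive.ofMul (QuotientGroup.mk (s := torsion K) (u ^ (g 0).val * u' ^ (g 1).val))
      = p • Additive.ofMul (QuotientGroup.mk (s := torsion K) w) := by
    rw [← hw]
    apply (basisModTorsion K).repr.injective
    ext k
    have e1 : Additive.ofMul (QuotientGroup.mk (s := torsion K) (u ^ (g 0).val * u' ^ (g 1).val))
        = (g 0).val • Additive.ofMul (QuotientGroup.mk (s := torsion K) u)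
          + (g 1).val • Additive.ofMul (QuotientGroup.mk (s := torsion K) u') := rfl
    rw [e1, map_add, map_nsmul, map_nsmul, map_nsmul]
    simp only [Finsupp.coe_add, Finsupp.coe_smul, Pi.add_apply, Pi.smul_apply]
    rw [Module.Basis.repr_sum_self]
    simp only [nsmul_eq_mul]
    have := hd k
    rw [hc] at this
    exact this
  have htors : (u ^ (g 0).val * u' ^ (g 1).val) * (w ^ p)⁻¹ ∈ torsion K := by
    have h1 : (QuotientGroup.mk (s := torsion K) (u ^ (g 0).val * u' ^ (g 1).val))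
        = QuotientGroup.mk (s := torsion K) (w ^ p) := Additive.ofMul.injective hrel
    rw [QuotientGroup.eq] at h1
    have h2 := inv_mem h1
    rwa [mul_inv_rev, inv_inv, mul_comm] at h2
  refine ⟨(g 0).val, (g 1).val, w, (u ^ (g 0).val * u' ^ (g 1).val) * (w ^ p)⁻¹, ?_, htors,
    by rw [inv_mul_cancel_right]⟩
  rintro ⟨h1, h2⟩
  have e0 : g 0 = 0 := by
    rw [← ZMod.natCast_zmod_val (g 0)]
    exact (ZMod.natCast_eq_zero_iff _ _).mpr h1
  have e1 : g 1 = 0 := by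
    rw [← ZMod.natCast_zmod_val (g 1)]
    exact (ZMod.natCast_eq_zero_iff _ _).mpr h2
  fin_cases i₀
  · exact hi₀ e0
  · exact hi₀ e1

/-! ### Removing the torsion: the first logarithmic derivative -/

/-- The first logarithmic derivative on `T3 F`. -/
def T3.lam1 {F : Type} [Field F] (w : T3 F) : F := w.c1 / w.c0

theorem T3.lam1_mul {F : Type} [Field F] (w z : T3 F) (hw : w.c0 ≠ 0) (hz : z.c0 ≠ 0) :
    T3.lam1 (w * z) = T3.lam1 w + T3.lam1 z := by
  simp only [T3.lam1, T3.mul_c0, T3.mul_c1]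
  field_simp
  ring

theorem T3.lam1_subst {F : Type} [Field F] (a : ℕ) (w : T3 F) :
    T3.lam1 (T3.subst a w) = (a : F) * T3.lam1 w := by
  simp only [T3.lam1, T3.subst_c0, T3.subst_c1]
  ring

/-- The first logarithmic derivative on units. -/
noncomputable def Lam1 (hp5 : 5 ≤ p) {ζ : K} (hζ : IsPrimitiveRoot ζ p) :
    (𝓞 K)ˣ →* Multiplicative (ZMod p) where
  toFun u := Multiplicative.ofAdd (T3.lam1 (Psi p K hp5 hζ (u : 𝓞 K)))
  map_one' := by
    simp [T3.lam1]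
  map_mul' u v := by
    rw [← ofAdd_add]
    congr 1
    rw [Units.val_mul, map_mul]
    exact T3.lam1_mul _ _ (c0_Psi_unit_ne_zero p K hp5 hζ u) (c0_Psi_unit_ne_zero p K hp5 hζ v)

theorem toAdd_Lam1 (hp5 : 5 ≤ p) {ζ : K} (hζ : IsPrimitiveRoot ζ p) (u : (𝓞 K)ˣ) :
    Multiplicative.toAdd (Lam1 p K hp5 hζ u) = T3.lam1 (Psi p K hp5 hζ (u : 𝓞 K)) := rfl

theorem toAdd_Lam1_galU (hp5 : 5 ≤ p) {ζ : K} (hζ : IsPrimitiveRoot ζ p) (σ : K ≃ₐ[ℚ] K) (a : ℕ)
    (hσ : σ ζ = ζ ^ a) (u : (𝓞 K)ˣ) :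
    Multiplicative.toAdd (Lam1 p K hp5 hζ (galU K σ u))
      = (a : ZMod p) * Multiplicative.toAdd (Lam1 p K hp5 hζ u) := by
  rw [toAdd_Lam1, toAdd_Lam1, galU_val, Psi_map p K hp5 hζ σ a hσ, T3.lam1_subst]

theorem toAdd_Lam1_pow (hp5 : 5 ≤ p) {ζ : K} (hζ : IsPrimitiveRoot ζ p) (u : (𝓞 K)ˣ) (n : ℕ) :
    Multiplicative.toAdd (Lam1 p K hp5 hζ (u ^ n))
      = (n : ZMod p) * Multiplicative.toAdd (Lam1 p K hp5 hζ u) := by
  rw [map_pow, toAdd_pow, nsmul_eq_mul]

theorem toAdd_Lam1_pow_p (hp5 : 5 ≤ p) {ζ : K} (hζ : IsPrimitiveRoot ζ p) (u : (𝓞 K)ˣ) :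
    Multiplicative.toAdd (Lam1 p K hp5 hζ (u ^ p)) = 0 := by
  rw [toAdd_Lam1_pow, ZMod.natCast_self, zero_mul]

theorem toAdd_Lam1_mul (hp5 : 5 ≤ p) {ζ : K} (hζ : IsPrimitiveRoot ζ p) (u v : (𝓞 K)ˣ) :
    Multiplicative.toAdd (Lam1 p K hp5 hζ (u * v))
      = Multiplicative.toAdd (Lam1 p K hp5 hζ u) + Multiplicative.toAdd (Lam1 p K hp5 hζ v) := by
  rw [map_mul, toAdd_mul]

theorem toAdd_Lam1_neg_one (hp5 : 5 ≤ p) {ζ : K} (hζ : IsPrimitiveRoot ζ p) :
    Multiplicative.toAdd (Lam1 p K hp5 hζ (-1)) = 0 := by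
  rw [toAdd_Lam1, Units.val_neg, Units.val_one, map_neg, map_one]
  simp [T3.lam1]

/-- `ζ` as a unit of the ring of integers. -/
noncomputable def zetaU {ζ : K} (hζ : IsPrimitiveRoot ζ p) : (𝓞 K)ˣ :=
  (hζ.toInteger_isPrimitiveRoot.isUnit hp.out.ne_zero).unit

theorem zetaU_val {ζ : K} (hζ : IsPrimitiveRoot ζ p) :
    ((zetaU p K hζ : (𝓞 K)ˣ) : 𝓞 K) = hζ.toInteger := rfl

theorem zetaU_pow_p {ζ : K} (hζ : IsPrimitiveRoot ζ p) : zetaU p K hζ ^ p = 1 := by
  apply Units.ext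
  rw [Units.val_pow_eq_pow_val, zetaU_val, hζ.toInteger_isPrimitiveRoot.pow_eq_one, Units.val_one]

theorem toAdd_Lam1_zetaU (hp5 : 5 ≤ p) {ζ : K} (hζ : IsPrimitiveRoot ζ p) :
    Multiplicative.toAdd (Lam1 p K hp5 hζ (zetaU p K hζ)) = 1 := by
  rw [toAdd_Lam1, zetaU_val, Psi_zeta]
  simp [T3.lam1, T3.xi]

/-- The roots of unity of the `p`-th cyclotomic field are `± ζ ^ r`. -/
theorem torsion_eq (hp5 : 5 ≤ p) {ζ : K} (hζ : IsPrimitiveRoot ζ p) (t : (𝓞 K)ˣ)
    (ht : t ∈ torsion K) : ∃ r : ℕ, t = zetaU p K hζ ^ r ∨ t = -zetaU p K hζ ^ r := by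
  have hodd : Odd p := hp.out.odd_of_ne_two (by omega)
  obtain ⟨N, hNpos, hN⟩ := isOfFinOrder_iff_pow_eq_one.1 ((CommGroup.mem_torsion _).1 ht)
  have hfin : IsOfFinOrder (((t : (𝓞 K)ˣ) : 𝓞 K) : K) := by
    refine isOfFinOrder_iff_pow_eq_one.2 ⟨N, hNpos, ?_⟩
    rw [← map_pow, ← Units.val_pow_eq_pow_val, hN]
    simp
  obtain ⟨r, -, hr⟩ := hζ.exists_pow_or_neg_mul_pow_of_isOfFinOrder hodd hfin
  refine ⟨r, ?_⟩
  rcases hr with h | h
  · left
    apply Units.ext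
    apply RingOfIntegers.ext
    rw [h]
    simp only [Units.val_pow_eq_pow_val, zetaU_val, map_pow]
    rfl
  · right
    apply Units.ext
    apply RingOfIntegers.ext
    rw [h]
    simp only [Units.val_neg, Units.val_pow_eq_pow_val, zetaU_val, map_neg, map_pow]
    rfl

/-- Eigen units have trivial first logarithmic derivative. -/
theorem toAdd_Lam1_of_isEig (hp5 : 5 ≤ p) {ζ : K} (hζ : IsPrimitiveRoot ζ p) (u : (𝓞 K)ˣ)
    (hu : IsEig p K ζ u) : Multiplicative.toAdd (Lam1 p K hp5 hζ u) = 0 := by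
  obtain ⟨τ, hτ⟩ := exists_aut_two p K hp5 hζ
  have ha : ((aExp p K hζ τ : ℕ) : ZMod p) = 2 := by rw [aExp_cast, hτ]
  obtain ⟨v, hv⟩ := (isEig_iff p K ζ u).mp hu τ (aExp p K hζ τ) (aExp_spec p K hζ τ)
  have h1 := toAdd_Lam1_galU p K hp5 hζ τ _ (aExp_spec p K hζ τ) u
  rw [hv, toAdd_Lam1_mul, toAdd_Lam1_pow, toAdd_Lam1_pow_p, add_zero] at h1
  push_cast at h1
  rw [ha] at h1
  have h2 : (2 : ZMod p) * Multiplicative.toAdd (Lam1 p K hp5 hζ u) = 0 := by
    linear_combination h1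
  exact (mul_eq_zero.mp h2).resolve_left (two_ne_zero_zmod p hp5)

/-- **B2**: two `ω²`-eigen units satisfy a non-trivial relation modulo `p`-th powers. -/
theorem exists_pow_mul_pow_eq_pow (hp5 : 5 ≤ p) {ζ : K} (hζ : IsPrimitiveRoot ζ p)
    (u u' : (𝓞 K)ˣ) (hu : IsEig p K ζ u) (hu' : IsEig p K ζ u') :
    ∃ (i j : ℕ) (v : (𝓞 K)ˣ), ¬ (p ∣ i ∧ p ∣ j) ∧ u ^ i * u' ^ j = v ^ p := by
  obtain ⟨i, j, w, t, hij, ht, h⟩ := exists_rel_mod_torsion p K hp5 hζ u u' hu hu'
  have hodd : Odd p := hp.out.odd_of_ne_two (by omega)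
  have hL : Multiplicative.toAdd (Lam1 p K hp5 hζ (u ^ i * u' ^ j)) = 0 := by
    rw [toAdd_Lam1_mul, toAdd_Lam1_pow, toAdd_Lam1_pow, toAdd_Lam1_of_isEig p K hp5 hζ u hu,
      toAdd_Lam1_of_isEig p K hp5 hζ u' hu', mul_zero, mul_zero, add_zero]
  rw [h, toAdd_Lam1_mul, toAdd_Lam1_pow_p, add_zero] at hL
  obtain ⟨v, hv⟩ : ∃ v : (𝓞 K)ˣ, t * w ^ p = v ^ p := by
    obtain ⟨r, hr | hr⟩ := torsion_eq p K hp5 hζ t ht
    · rw [hr, toAdd_Lam1_pow, toAdd_Lam1_zetaU, mul_one, ZMod.natCast_eq_zero_iff] at hL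
      obtain ⟨k, rfl⟩ := hL
      refine ⟨w, ?_⟩
      rw [hr, pow_mul, zetaU_pow_p, one_pow, one_mul]
    · rw [hr, neg_eq_neg_one_mul, toAdd_Lam1_mul, toAdd_Lam1_neg_one, zero_add, toAdd_Lam1_pow,
        toAdd_Lam1_zetaU, mul_one, ZMod.natCast_eq_zero_iff] at hL
      obtain ⟨k, rfl⟩ := hL
      refine ⟨-w, ?_⟩
      rw [hr, pow_mul, zetaU_pow_p, one_pow, hodd.neg_pow, neg_one_mul]
  exact ⟨i, j, v, hij, h.trans hv⟩

end cyclo

end Fermat.Agent.S14.H11
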