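import Fermat.Agent.S14.H11.GalU

/-!
# The trace of a field automorphism acting on the units modulo torsion

For a number field `K` and `τ : K ≃ₐ[ℚ] K`, the trace of `τ` acting on the free `ℤ`-module
`(𝓞 K)ˣ ⧸ torsion` equals the number of infinite places fixed by `τ` minus one
(`trace_galLam`).  This is the Galois-module form of Dirichlet's unit theorem that we need.
-/

set_option autoImplicit false
set_option maxSynthPendingDepth 3
set_option linter.unusedSectionVars false

open NumberField NumberField.Units NumberField.InfinitePlace NumberField.Units.dirichletUnitTheorem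

namespace Fermat.Agent.S14.H11

variable (K : Type) [Field K] [NumberField K]

theorem torsion_le_comap_galU (τ : K ≃ₐ[ℚ] K) :
    torsion K ≤ (torsion K).comap (galU K τ) := by
  intro x hx
  rw [Subgroup.mem_comap]
  exact (CommGroup.mem_torsion _).2 ((galU K τ).isOfFinOrder ((CommGroup.mem_torsion _).1 hx))

/-- The action of `τ` on units modulo torsion, as a `ℤ`-linear map. -/
noncomputable def galLam (τ : K ≃ₐ[ℚ] K) :
    Additive ((𝓞 K)ˣ ⧸ torsion K) →ₗ[ℤ] Additive ((𝓞 K)ˣ ⧸ torsion K) :=
  (MonoidHom.toAdditive (QuotientGroup.map (torsion K) (torsion K) (galU K τ)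
    (torsion_le_comap_galU K τ))).toIntLinearMap

theorem galLam_mk (τ : K ≃ₐ[ℚ] K) (u : (𝓞 K)ˣ) :
    galLam K τ (Additive.ofMul (QuotientGroup.mk u))
      = Additive.ofMul (QuotientGroup.mk (galU K τ u)) := rfl

theorem exists_rep (x : Additive ((𝓞 K)ˣ ⧸ torsion K)) :
    ∃ u : (𝓞 K)ˣ, x = Additive.ofMul (QuotientGroup.mk u) := by
  obtain ⟨u, hu⟩ := QuotientGroup.mk_surjective (Additive.toMul x)
  exact ⟨u, by rw [hu]; rfl⟩

theorem galLam_mul (σ τ : K ≃ₐ[ℚ] K) : galLam K (σ * τ) = galLam K σ ∘ₗ galLam K τ := by
  ext x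
  obtain ⟨u, rfl⟩ := exists_rep K x
  rw [LinearMap.comp_apply, galLam_mk, galLam_mk, galLam_mk, galU_mul]

theorem galLam_one : galLam K 1 = LinearMap.id := by
  ext x
  obtain ⟨u, rfl⟩ := exists_rep K x
  rw [galLam_mk, galU_one, LinearMap.id_apply]

/-- The matrix of `galLam` in the basis of fundamental units. -/
noncomputable def galMat (τ : K ≃ₐ[ℚ] K) : Matrix (Fin (rank K)) (Fin (rank K)) ℤ :=
  LinearMap.toMatrix (basisModTorsion K) (basisModTorsion K) (galLam K τ)

theorem galMat_mul (σ τ : K ≃ₐ[ℚ] K) : galMat K (σ * τ) = galMat K σ * galMat K τ := by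
  unfold galMat
  rw [galLam_mul, LinearMap.toMatrix_comp (basisModTorsion K) (basisModTorsion K)]

theorem galMat_one : galMat K 1 = 1 := by
  unfold galMat
  rw [galLam_one, LinearMap.toMatrix_id]

theorem trace_galLam_eq (τ : K ≃ₐ[ℚ] K) :
    LinearMap.trace ℤ _ (galLam K τ) = (galMat K τ).trace :=
  LinearMap.trace_eq_matrix_trace ℤ (basisModTorsion K) _

/-- `τ ε_j = t * ∏ ε_i ^ M i j` with `t` a root of unity. -/
theorem galU_fundSystem (τ : K ≃ₐ[ℚ] K) (j : Fin (rank K)) :
    ∃ t ∈ torsion K, galU K τ (fundSystem K j) = t * ∏ i, fundSystem K i ^ (galMat K τ i j) := by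
  have h1 : galLam K τ (basisModTorsion K j)
      = ∑ i, (galMat K τ i j) • basisModTorsion K i := by
    unfold galMat
    simp_rw [LinearMap.toMatrix_apply]
    exact ((basisModTorsion K).sum_repr _).symm
  have h2 : ∑ i, (galMat K τ i j) • basisModTorsion K i
      = Additive.ofMul (QuotientGroup.mk (s := torsion K)
          (∏ i, fundSystem K i ^ (galMat K τ i j))) := by
    rw [QuotientGroup.mk_prod, ofMul_prod]
    refine Finset.sum_congr rfl fun i _ => ?_
    rw [QuotientGroup.mk_zpow, ofMul_zpow, fundSystem_mk]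
  rw [← fundSystem_mk, galLam_mk, h2] at h1
  have h3 := Additive.ofMul.injective h1
  rw [QuotientGroup.eq] at h3
  refine ⟨galU K τ (fundSystem K j) * (∏ i, fundSystem K i ^ (galMat K τ i j))⁻¹, ?_,
    by rw [inv_mul_cancel_right]⟩
  have h4 := inv_mem h3
  rwa [mul_inv_rev, inv_inv, mul_comm] at h4

/-- The logarithm of the absolute value at `w`, as an additive map on units. -/
noncomputable def logAt (w : InfinitePlace K) : Additive (𝓞 K)ˣ →+ ℝ where
  toFun u := Real.log (w ((Additive.toMul u : (𝓞 K)ˣ) : K))
  map_zero' := by simp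
  map_add' u v := by
    rw [toMul_add, Units.val_mul]
    rw [map_mul, map_mul, Real.log_mul]
    · exact (pos_at_place _ w).ne'
    · exact (pos_at_place _ w).ne'

theorem logAt_apply (w : InfinitePlace K) (u : (𝓞 K)ˣ) :
    logAt K w (Additive.ofMul u) = Real.log (w ((u : 𝓞 K) : K)) := rfl

theorem logAt_torsion (w : InfinitePlace K) (t : (𝓞 K)ˣ) (ht : t ∈ torsion K) :
    logAt K w (Additive.ofMul t) = 0 := by
  rw [logAt_apply, (mem_torsion K).1 ht w, Real.log_one]

/-- The logarithms of the absolute values of the fundamental units. -/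
noncomputable def logFund (i : Fin (rank K)) : InfinitePlace K → ℝ :=
  fun w => logAt K w (Additive.ofMul (fundSystem K i))

theorem place_galU (τ : K ≃ₐ[ℚ] K) (w : InfinitePlace K) (u : (𝓞 K)ˣ) :
    w ((galU K τ u : (𝓞 K)ˣ) : K) = (τ⁻¹ • w) (u : K) := by
  rw [InfinitePlace.smul_apply]
  rfl

theorem logAt_galU (τ : K ≃ₐ[ℚ] K) (w : InfinitePlace K) (u : (𝓞 K)ˣ) :
    logAt K w (Additive.ofMul (galU K τ u)) = logAt K (τ⁻¹ • w) (Additive.ofMul u) := by
  rw [logAt_apply, logAt_apply, place_galU]

theorem logFund_smul (τ : K ≃ₐ[ℚ] K) (j : Fin (rank K)) (w : InfinitePlace K) :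
    logFund K j (τ⁻¹ • w) = ∑ i, (galMat K τ i j : ℝ) * logFund K i w := by
  obtain ⟨t, ht, h⟩ := galU_fundSystem K τ j
  unfold logFund
  rw [← logAt_galU, h, ofMul_mul, map_add, logAt_torsion K w t ht, zero_add, ofMul_prod, map_sum]
  refine Finset.sum_congr rfl fun i _ => ?_
  rw [ofMul_zpow, map_zsmul, zsmul_eq_mul]

/-- The family `1, log|ε_1|, …, log|ε_r|` of functions on the infinite places. -/
noncomputable def Bv : Option (Fin (rank K)) → (InfinitePlace K → ℝ)
  | none => fun _ => 1
  | some i => logFund K i

theorem Bv_none (w : InfinitePlace K) : Bv K none w = 1 := rfl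

theorem Bv_some (i : Fin (rank K)) : Bv K (some i) = logFund K i := rfl

theorem logFund_apply (i : Fin (rank K)) (w : InfinitePlace K) :
    logFund K i w = Real.log (w ((fundSystem K i : 𝓞 K) : K)) := rfl

theorem linearIndependent_Bv : LinearIndependent ℝ (Bv K) := by
  rw [Fintype.linearIndependent_iff]
  intro c hc
  rw [Fintype.sum_option] at hc
  have hw : ∀ w : InfinitePlace K, c none + ∑ i, c (some i) * logFund K i w = 0 := by
    intro w
    have := congrFun hc w
    simpa [Bv] using this
  -- step 1: the constant coefficient vanishes (product formula)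
  have h0 : c none = 0 := by
    have h1 : ∑ w : InfinitePlace K,
        (mult w : ℝ) * (c none + ∑ i, c (some i) * logFund K i w) = 0 := by
      simp [hw]
    have h2 : ∑ w : InfinitePlace K, (mult w : ℝ) * ∑ i, c (some i) * logFund K i w = 0 := by
      simp_rw [Finset.mul_sum]
      rw [Finset.sum_comm]
      refine Finset.sum_eq_zero fun i _ => ?_
      have := sum_mult_mul_log (fundSystem K i)
      calc ∑ w : InfinitePlace K, (mult w : ℝ) * (c (some i) * logFund K i w)
          = c (some i) * ∑ w : InfinitePlace K,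
              (mult w : ℝ) * Real.log (w ((fundSystem K i : 𝓞 K) : K)) := by
            rw [Finset.mul_sum]
            refine Finset.sum_congr rfl fun w _ => ?_
            rw [logFund_apply]
            ring
        _ = 0 := by rw [this, mul_zero]
    simp_rw [mul_add] at h1
    rw [Finset.sum_add_distrib, h2, add_zero, ← Finset.sum_mul] at h1
    have hpos : (0 : ℝ) < ∑ w : InfinitePlace K, (mult w : ℝ) :=
      Finset.sum_pos (fun w _ => by exact_mod_cast mult_pos) Finset.univ_nonempty
    rcases mul_eq_zero.mp h1 with h | h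
    · exact absurd h hpos.ne'
    · exact h
  -- step 2: the fundamental units have maximal rank
  have h3 := Fintype.linearIndependent_iff.mp (isMaxRank_fundSystem K) (fun i => c (some i)) (by
    funext w'
    simp only [Finset.sum_apply, Pi.smul_apply, logEmbedding_component, smul_eq_mul,
      Pi.zero_apply]
    have := hw w'.val
    rw [h0, zero_add] at this
    calc _ = (mult w'.val : ℝ) * ∑ i, c (some i) * logFund K i w'.val := by
          rw [Finset.mul_sum]
          refine Finset.sum_congr rfl fun i _ => ?_
          rw [logFund_apply]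
          ring
      _ = 0 := by rw [this, mul_zero])
  intro i
  cases i with
  | none => exact h0
  | some i => exact h3 i

theorem card_option_rank :
    Fintype.card (Option (Fin (rank K))) = Module.finrank ℝ (InfinitePlace K → ℝ) := by
  rw [Fintype.card_option, Fintype.card_fin, Module.finrank_fintype_fun_eq_card]
  unfold rank
  have : 0 < Fintype.card (InfinitePlace K) := Fintype.card_pos
  omega

/-- The basis `1, log|ε_1|, …, log|ε_r|` of the functions on the infinite places. -/
noncomputable def basisBv : Module.Basis (Option (Fin (rank K))) ℝ (InfinitePlace K → ℝ) :=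
  basisOfLinearIndependentOfCardEqFinrank (linearIndependent_Bv K) (card_option_rank K)

theorem basisBv_apply (i : Option (Fin (rank K))) : basisBv K i = Bv K i := by
  unfold basisBv
  rw [coe_basisOfLinearIndependentOfCardEqFinrank]

/-- The permutation action of `τ` on the functions on the infinite places. -/
noncomputable def permMap (τ : K ≃ₐ[ℚ] K) :
    (InfinitePlace K → ℝ) →ₗ[ℝ] (InfinitePlace K → ℝ) :=
  LinearMap.funLeft ℝ ℝ (fun w => τ⁻¹ • w)

theorem permMap_apply (τ : K ≃ₐ[ℚ] K) (f : InfinitePlace K → ℝ) (w : InfinitePlace K) :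
    permMap K τ f w = f (τ⁻¹ • w) := rfl

theorem trace_permMap_fixed (τ : K ≃ₐ[ℚ] K) :
    LinearMap.trace ℝ _ (permMap K τ)
      = (Nat.card {w : InfinitePlace K // τ • w = w} : ℝ) := by
  classical
  rw [Nat.card_eq_fintype_card, LinearMap.trace_eq_matrix_trace ℝ (Pi.basisFun ℝ (InfinitePlace K))]
  unfold Matrix.trace
  simp only [Matrix.diag_apply, LinearMap.toMatrix_apply, Pi.basisFun_apply, Pi.basisFun_repr,
    permMap_apply, Pi.single_apply]
  rw [Finset.sum_boole, Fintype.card_subtype]
  congr 2
  ext w
  simp only [Finset.mem_filter, Finset.mem_univ, true_and]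
  constructor
  · intro h
    rw [← h, smul_inv_smul]
    exact h.symm
  · intro h
    rw [inv_smul_eq_iff]
    exact h.symm

theorem trace_permMap_galMat (τ : K ≃ₐ[ℚ] K) :
    LinearMap.trace ℝ _ (permMap K τ) = 1 + (((galMat K τ).trace : ℤ) : ℝ) := by
  classical
  rw [LinearMap.trace_eq_matrix_trace ℝ (basisBv K)]
  unfold Matrix.trace
  rw [Fintype.sum_option]
  simp only [Matrix.diag_apply, LinearMap.toMatrix_apply]
  have hnone : permMap K τ (basisBv K none)
      = ∑ i', (if i' = none then (1 : ℝ) else 0) • basisBv K i' := by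
    rw [Fintype.sum_option]
    simp only [if_true, one_smul, reduceCtorEq, if_false, zero_smul, Finset.sum_const_zero,
      add_zero]
    ext w
    rw [basisBv_apply, permMap_apply]
    rfl
  have hsome : ∀ j, permMap K τ (basisBv K (some j))
      = ∑ i', (Option.elim i' (0 : ℝ) (fun i => (galMat K τ i j : ℝ))) • basisBv K i' := by
    intro j
    rw [Fintype.sum_option]
    simp only [Option.elim_none, zero_smul, zero_add, Option.elim_some]
    ext w
    rw [basisBv_apply, permMap_apply, Bv_some, logFund_smul, Finset.sum_apply]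
    refine Finset.sum_congr rfl fun i _ => ?_
    rw [Pi.smul_apply, basisBv_apply, Bv_some, smul_eq_mul]
  rw [hnone, Module.Basis.repr_sum_self]
  simp only [hsome, Module.Basis.repr_sum_self, if_true, Option.elim_some]
  push_cast
  rfl

/-- **Trace formula**: the trace of `τ` on units modulo torsion is the number of infinite places
fixed by `τ`, minus one. -/
theorem trace_galMat (τ : K ≃ₐ[ℚ] K) :
    (galMat K τ).trace = (Nat.card {w : InfinitePlace K // τ • w = w} : ℤ) - 1 := by
  have h := (trace_permMap_galMat K τ).symm.trans (trace_permMap_fixed K τ)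
  have h' : (((galMat K τ).trace : ℤ) : ℝ)
      = (((Nat.card {w : InfinitePlace K // τ • w = w} : ℤ) - 1 : ℤ) : ℝ) := by
    push_cast
    linarith
  exact_mod_cast h'

end Fermat.Agent.S14.H11
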