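import Mathlib

/-!
# Truncated polynomials modulo `X ^ 3`

`T3 F` is a concrete model of `F[X] / (X ^ 3)`: triples `(c0, c1, c2)` standing for
`c0 + c1 X + c2 X ^ 2`.  It is used as the target of the "second logarithmic derivative"
`lam2` on the units of the `p`-th cyclotomic ring of integers.
-/

set_option autoImplicit false

namespace Fermat.Agent.S14.H11

/-- Truncated polynomials `c0 + c1 X + c2 X ^ 2` modulo `X ^ 3`. -/
@[ext] structure T3 (F : Type) where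
  /-- constant coefficient -/
  c0 : F
  /-- coefficient of `X` -/
  c1 : F
  /-- coefficient of `X ^ 2` -/
  c2 : F

namespace T3

variable {F : Type} [CommRing F]

instance : Zero (T3 F) := ⟨⟨0, 0, 0⟩⟩
instance : One (T3 F) := ⟨⟨1, 0, 0⟩⟩
instance : Add (T3 F) := ⟨fun a b => ⟨a.c0 + b.c0, a.c1 + b.c1, a.c2 + b.c2⟩⟩
instance : Neg (T3 F) := ⟨fun a => ⟨-a.c0, -a.c1, -a.c2⟩⟩
instance : Sub (T3 F) := ⟨fun a b => ⟨a.c0 - b.c0, a.c1 - b.c1, a.c2 - b.c2⟩⟩
instance : Mul (T3 F) :=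
  ⟨fun a b => ⟨a.c0 * b.c0, a.c0 * b.c1 + a.c1 * b.c0, a.c0 * b.c2 + a.c1 * b.c1 + a.c2 * b.c0⟩⟩
instance instSMulNat : SMul ℕ (T3 F) := ⟨fun n a => ⟨n • a.c0, n • a.c1, n • a.c2⟩⟩
instance instSMulInt : SMul ℤ (T3 F) := ⟨fun n a => ⟨n • a.c0, n • a.c1, n • a.c2⟩⟩
instance : NatCast (T3 F) := ⟨fun n => ⟨n, 0, 0⟩⟩
instance : IntCast (T3 F) := ⟨fun n => ⟨n, 0, 0⟩⟩

@[simp] theorem zero_c0 : (0 : T3 F).c0 = 0 := rfl
@[simp] theorem zero_c1 : (0 : T3 F).c1 = 0 := rfl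
@[simp] theorem zero_c2 : (0 : T3 F).c2 = 0 := rfl
@[simp] theorem one_c0 : (1 : T3 F).c0 = 1 := rfl
@[simp] theorem one_c1 : (1 : T3 F).c1 = 0 := rfl
@[simp] theorem one_c2 : (1 : T3 F).c2 = 0 := rfl
@[simp] theorem add_c0 (a b : T3 F) : (a + b).c0 = a.c0 + b.c0 := rfl
@[simp] theorem add_c1 (a b : T3 F) : (a + b).c1 = a.c1 + b.c1 := rfl
@[simp] theorem add_c2 (a b : T3 F) : (a + b).c2 = a.c2 + b.c2 := rfl
@[simp] theorem neg_c0 (a : T3 F) : (-a).c0 = -a.c0 := rfl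
@[simp] theorem neg_c1 (a : T3 F) : (-a).c1 = -a.c1 := rfl
@[simp] theorem neg_c2 (a : T3 F) : (-a).c2 = -a.c2 := rfl
@[simp] theorem sub_c0 (a b : T3 F) : (a - b).c0 = a.c0 - b.c0 := rfl
@[simp] theorem sub_c1 (a b : T3 F) : (a - b).c1 = a.c1 - b.c1 := rfl
@[simp] theorem sub_c2 (a b : T3 F) : (a - b).c2 = a.c2 - b.c2 := rfl
@[simp] theorem mul_c0 (a b : T3 F) : (a * b).c0 = a.c0 * b.c0 := rfl
@[simp] theorem mul_c1 (a b : T3 F) : (a * b).c1 = a.c0 * b.c1 + a.c1 * b.c0 := rfl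
@[simp] theorem mul_c2 (a b : T3 F) :
    (a * b).c2 = a.c0 * b.c2 + a.c1 * b.c1 + a.c2 * b.c0 := rfl
@[simp] theorem nsmul_c0 (n : ℕ) (a : T3 F) : (n • a).c0 = n • a.c0 := rfl
@[simp] theorem nsmul_c1 (n : ℕ) (a : T3 F) : (n • a).c1 = n • a.c1 := rfl
@[simp] theorem nsmul_c2 (n : ℕ) (a : T3 F) : (n • a).c2 = n • a.c2 := rfl
@[simp] theorem zsmul_c0 (n : ℤ) (a : T3 F) : (n • a).c0 = n • a.c0 := rfl
@[simp] theorem zsmul_c1 (n : ℤ) (a : T3 F) : (n • a).c1 = n • a.c1 := rfl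
@[simp] theorem zsmul_c2 (n : ℤ) (a : T3 F) : (n • a).c2 = n • a.c2 := rfl
@[simp] theorem natCast_c0 (n : ℕ) : ((n : T3 F)).c0 = n := rfl
@[simp] theorem natCast_c1 (n : ℕ) : ((n : T3 F)).c1 = 0 := rfl
@[simp] theorem natCast_c2 (n : ℕ) : ((n : T3 F)).c2 = 0 := rfl
@[simp] theorem intCast_c0 (n : ℤ) : ((n : T3 F)).c0 = n := rfl
@[simp] theorem intCast_c1 (n : ℤ) : ((n : T3 F)).c1 = 0 := rfl
@[simp] theorem intCast_c2 (n : ℤ) : ((n : T3 F)).c2 = 0 := rfl

instance : CommRing (T3 F) where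
  add_assoc a b c := by ext <;> simp [add_assoc]
  zero_add a := by ext <;> simp
  add_zero a := by ext <;> simp
  add_comm a b := by ext <;> simp [add_comm]
  neg_add_cancel a := by ext <;> simp
  sub_eq_add_neg a b := by ext <;> simp [sub_eq_add_neg]
  nsmul n a := n • a
  nsmul_zero a := by ext <;> simp
  nsmul_succ n a := by ext <;> simp [add_mul]
  zsmul n a := n • a
  zsmul_zero' a := by ext <;> simp
  zsmul_succ' n a := by ext <;> simp [add_mul]
  zsmul_neg' n a := by ext <;> simp [add_mul]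
  mul_assoc a b c := by ext <;> simp <;> ring
  one_mul a := by ext <;> simp
  mul_one a := by ext <;> simp
  zero_mul a := by ext <;> simp
  mul_zero a := by ext <;> simp
  left_distrib a b c := by ext <;> simp <;> ring
  right_distrib a b c := by ext <;> simp <;> ring
  mul_comm a b := by ext <;> simp <;> ring
  natCast n := (n : T3 F)
  natCast_zero := by ext <;> simp
  natCast_succ n := by ext <;> simp
  intCast n := (n : T3 F)
  intCast_ofNat n := by ext <;> simp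
  intCast_negSucc n := by ext <;> simp

/-- The constant coefficient as a ring homomorphism. -/
def c0Hom : T3 F →+* F where
  toFun := c0
  map_one' := rfl
  map_mul' _ _ := rfl
  map_zero' := rfl
  map_add' _ _ := rfl

/-- The constants as a ring homomorphism. -/
def const : F →+* T3 F where
  toFun c := ⟨c, 0, 0⟩
  map_one' := rfl
  map_mul' a b := by ext <;> simp
  map_zero' := rfl
  map_add' a b := by ext <;> simp

instance : Algebra F (T3 F) := const.toAlgebra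

@[simp] theorem algebraMap_c0 (c : F) : (algebraMap F (T3 F) c).c0 = c := rfl
@[simp] theorem algebraMap_c1 (c : F) : (algebraMap F (T3 F) c).c1 = 0 := rfl
@[simp] theorem algebraMap_c2 (c : F) : (algebraMap F (T3 F) c).c2 = 0 := rfl

/-- The class of `X`. -/
def eps : T3 F := ⟨0, 1, 0⟩

@[simp] theorem eps_c0 : (eps : T3 F).c0 = 0 := rfl
@[simp] theorem eps_c1 : (eps : T3 F).c1 = 1 := rfl
@[simp] theorem eps_c2 : (eps : T3 F).c2 = 0 := rfl

theorem eps_pow_three : (eps : T3 F) ^ 3 = 0 := by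
  ext <;> simp [pow_succ]

theorem eps_pow_of_three_le {n : ℕ} (hn : 3 ≤ n) : (eps : T3 F) ^ n = 0 := by
  obtain ⟨k, rfl⟩ := Nat.exists_eq_add_of_le hn
  rw [pow_add, eps_pow_three, zero_mul]

/-- `1 + X`. -/
def xi : T3 F := ⟨1, 1, 0⟩

theorem xi_eq : (xi : T3 F) = 1 + eps := by ext <;> simp [xi]

theorem xi_pow (a : ℕ) : (xi : T3 F) ^ a = ⟨1, a, (a.choose 2 : ℕ)⟩ := by
  induction a with
  | zero => ext <;> simp
  | succ n ih =>
    rw [pow_succ, ih]
    ext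
    · simp [xi]
    · simp [xi, add_comm]
    · simp only [xi, mul_c2, mul_zero, mul_one, zero_add]
      rw [Nat.choose_succ_succ' n 1, Nat.choose_one_right]
      push_cast
      ring

/-- The substitution `X ↦ (1 + X) ^ a - 1`. -/
def subst (a : ℕ) : T3 F →+* T3 F where
  toFun w := ⟨w.c0, a * w.c1, (a.choose 2 : ℕ) * w.c1 + (a : F) ^ 2 * w.c2⟩
  map_one' := by ext <;> simp
  map_mul' x y := by ext <;> simp <;> ring
  map_zero' := by ext <;> simp
  map_add' x y := by ext <;> simp <;> ring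

@[simp] theorem subst_c0 (a : ℕ) (w : T3 F) : (subst a w).c0 = w.c0 := rfl
@[simp] theorem subst_c1 (a : ℕ) (w : T3 F) : (subst a w).c1 = a * w.c1 := rfl
@[simp] theorem subst_c2 (a : ℕ) (w : T3 F) :
    (subst a w).c2 = (a.choose 2 : ℕ) * w.c1 + (a : F) ^ 2 * w.c2 := rfl

theorem subst_xi (a : ℕ) : subst a (xi : T3 F) = xi ^ a := by
  rw [xi_pow]
  ext <;> simp [xi]

theorem two_mul_choose_two (a : ℕ) : (2 : F) * (a.choose 2 : ℕ) = (a : F) ^ 2 - a := by
  have h : 2 * a.choose 2 + a = a ^ 2 := by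
    rw [Nat.choose_two_right]
    have h2 : 2 ∣ a * (a - 1) := (Nat.even_mul_pred_self a).two_dvd
    rw [Nat.mul_div_cancel' h2]
    cases a with
    | zero => rfl
    | succ n => simp; ring
  have := congrArg (Nat.cast : ℕ → F) h
  push_cast at this
  linear_combination this

/-- The "second logarithmic derivative" on `T3 F`:
`lam2 w = (c1 + 2 c2) / c0 - (c1 / c0) ^ 2`. -/
def lam2 {F : Type} [Field F] (w : T3 F) : F := (w.c1 + 2 * w.c2) / w.c0 - (w.c1 / w.c0) ^ 2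

theorem lam2_mul {F : Type} [Field F] (w z : T3 F) (hw : w.c0 ≠ 0) (hz : z.c0 ≠ 0) :
    lam2 (w * z) = lam2 w + lam2 z := by
  simp only [lam2, mul_c0, mul_c1, mul_c2]
  field_simp
  ring

theorem lam2_subst {F : Type} [Field F] (a : ℕ) (w : T3 F) :
    lam2 (subst a w) = (a : F) ^ 2 * lam2 w := by
  simp only [lam2, subst_c0, subst_c1, subst_c2]
  have h := two_mul_choose_two (F := F) a
  have e : (a : F) * w.c1 + 2 * (((a.choose 2 : ℕ) : F) * w.c1 + (a : F) ^ 2 * w.c2)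
      = (a : F) ^ 2 * (w.c1 + 2 * w.c2) := by linear_combination w.c1 * h
  rw [e]
  ring

theorem lam2_of_c1_c2 {F : Type} [Field F] (w : T3 F) (h1 : w.c1 = 0) (h2 : w.c2 = 0) :
    lam2 w = 0 := by
  simp [lam2, h1, h2]

end T3

end Fermat.Agent.S14.H11
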